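import Mathlib

/-!
# S41 / ABS : two pure algebra lemmas (Mathlib only)

## key S41/ABS-DUAL : `abs_dual`  (~70 lines)
Suppose `t z ∉ range be`.  Take a linear form `φ` on `VA` vanishing on `range be` with `φ (t z) ≠ 0`
(`Submodule.exists_le_ker_of_notMem` / `Module.Dual` separation for subspaces of a vector space: `Submodule.exists_dual_map_eq_bot_of_notMem`, or
use a complement).  `w ↦ BA w ·` is injective (`hA` + `hAs`), hence bijective `VA → Dual` (finite dimension: `LinearMap.injective_iff_surjective_of_finrank_eq_finrank`,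
`Subspace.dual_finrank_eq`): `φ = BA w ·`.  `BA w (be y) = 0` for all `y`, so `BC (al w) y = 0` for all `y`, so `al w = 0` (`hCs`, `hC`), so `t w = 0`,
`φ (t z) = BA w (t z) = - BA (t z) w = - BA z (t w) = 0`.  Contradiction.

## key S41/ABS-LR : `abs_lr`  (~100 lines)
`I = range be`.  (1) `t I ⊆ I` (`h1`).  (2) by induction `∀ j x, ∃ y w, (t^[j]) x = be y + (p^j : ℤ) • w` (`hdual`, (1)).
(3) `K j = {x | (p^j : ℤ) • x ∈ I}` is an increasing chain of subgroups (`ℤ`-submodules) of the noetherian module `XA`: `∃ n, ∀ m ≥ n, K m = K n`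
(`monotone_stabilizes_iff_noetherian`).  (4) `be (al v) = p • z`.  `t^[n] z = be y₁ + p^n • w`; `p • t^[n] z = t^[n] (be (al v)) ∈ I`, so `p^(n+1) • w ∈ I`, `w ∈ K (n+1) = K n`,
`p^n • w ∈ I`, `t^[n] z = be y'`.  (5) `t^[n] v = c^n • v + p • w_n` (induction, `hc`), `tC^[n] (al v) = al (t^[n] v)` (`h2`).
`y := tC^[n] (al v) - p • y'`: `be y = t^[n] (be (al v)) - p • t^[n] z = 0`; `y = c^n • al v + p • (al w_n - y')`.
-/

set_option autoImplicit false

namespace Fermat.Agent.S41

/-- [S41/ABS-DUAL] -/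
theorem abs_dual {k VA VC : Type*} [Field k] [AddCommGroup VA] [Module k VA] [FiniteDimensional k VA]
    [AddCommGroup VC] [Module k VC]
    (BA : VA →ₗ[k] VA →ₗ[k] k) (BC : VC →ₗ[k] VC →ₗ[k] k)
    (hA : ∀ y, (∀ x, BA x y = 0) → y = 0) (hAs : ∀ x y, BA x y = - BA y x)
    (hC : ∀ y, (∀ x, BC x y = 0) → y = 0) (hCs : ∀ x y, BC x y = - BC y x)
    (al : VA →ₗ[k] VC) (be : VC →ₗ[k] VA) (hadj : ∀ x y, BC (al x) y = BA x (be y))
    (t : VA →ₗ[k] VA) (ht : ∀ x y, BA (t x) y = BA x (t y)) (hker : ∀ x, al x = 0 → t x = 0)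
    (z : VA) : ∃ y, t z = be y := by
  by_contra hcon
  have hnm : t z ∉ LinearMap.range be := by
    rintro ⟨y, hy⟩
    exact hcon ⟨y, hy.symm⟩
  obtain ⟨φ, hφ, hφ'⟩ := Submodule.exists_dual_map_eq_bot_of_notMem hnm inferInstance
  have hinj : Function.Injective BA := by
    rw [injective_iff_map_eq_zero]
    intro w hw
    apply hA
    intro x
    rw [hAs, hw]
    simp
  have hsurj : Function.Surjective BA := by
    apply (LinearMap.injective_iff_surjective_of_finrank_eq_finrank ?_).1 hinj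
    exact (Subspace.dual_finrank_eq).symm
  obtain ⟨w, hw⟩ := hsurj φ
  have h1 : ∀ y, BA w (be y) = 0 := by
    intro y
    have : φ (be y) ∈ (LinearMap.range be).map φ := ⟨be y, ⟨y, rfl⟩, rfl⟩
    rw [hφ'] at this
    rw [hw]
    simpa using this
  have h2 : al w = 0 := by
    apply hC
    intro x
    rw [hCs, hadj, h1]
    simp
  have h3 : t w = 0 := hker w h2
  apply hφ
  rw [← hw, hAs, ht, h3]
  simp

/-- [S41/ABS-LR] -/
theorem abs_lr {XA XC : Type*} [AddCommGroup XA] [AddCommGroup XC] [Module.Finite ℤ XA] (p : ℕ)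
    (al : XA →+ XC) (be : XC →+ XA) (t : XA →+ XA) (tC : XC →+ XC)
    (h1 : ∀ y, be (tC y) = t (be y)) (h2 : ∀ x, tC (al x) = al (t x))
    (hdual : ∀ z, ∃ y w, t z = be y + (p : ℤ) • w)
    (v : XA) (hv : ∃ z, be (al v) = (p : ℤ) • z) (c : ℤ) (hc : ∃ w, t v = c • v + (p : ℤ) • w) :
    ∃ (y : XC) (n : ℕ) (w : XC), be y = 0 ∧ y = c ^ n • al v + (p : ℤ) • w := by
  -- iterates
  have h1' : ∀ (j : ℕ) y, be (tC^[j] y) = t^[j] (be y) := by
    intro j
    induction j with
    | zero => intro y; rfl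
    | succ j ih =>
      intro y
      rw [Function.iterate_succ_apply', Function.iterate_succ_apply', h1, ih]
  have h2' : ∀ (j : ℕ) x, tC^[j] (al x) = al (t^[j] x) := by
    intro j
    induction j with
    | zero => intro y; rfl
    | succ j ih =>
      intro y
      rw [Function.iterate_succ_apply', Function.iterate_succ_apply', ih, h2]
  have hsm : ∀ (j : ℕ) (m : ℤ) x, t^[j] (m • x) = m • t^[j] x := by
    intro j m
    induction j with
    | zero => intro y; rfl
    | succ j ih =>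
      intro y
      rw [Function.iterate_succ_apply', Function.iterate_succ_apply', ih, map_zsmul]
  -- (2)
  have hstep : ∀ (j : ℕ) x, ∃ y w, t^[j] x = be y + ((p : ℤ) ^ j) • w := by
    intro j
    induction j with
    | zero => intro x; exact ⟨0, x, by simp⟩
    | succ j ih =>
      intro x
      obtain ⟨y, w, h⟩ := ih x
      obtain ⟨y', w', h'⟩ := hdual w
      refine ⟨tC y + ((p : ℤ) ^ j) • y', w', ?_⟩
      rw [Function.iterate_succ_apply', h, map_add, map_zsmul, h', map_add, h1, map_zsmul, smul_add,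
        smul_smul, pow_succ, add_assoc]
  -- (3)
  let K : ℕ →o Submodule ℤ XA :=
    { toFun := fun j => (LinearMap.range be.toIntLinearMap).comap
        (LinearMap.lsmul ℤ XA ((p : ℤ) ^ j))
      monotone' := by
        apply monotone_nat_of_le_succ
        intro j x hx
        simp only [Submodule.mem_comap, LinearMap.lsmul_apply] at hx ⊢
        rw [pow_succ', mul_smul]
        exact Submodule.smul_mem _ _ hx }
  have hK : ∀ j x, x ∈ K j ↔ ∃ y, be y = ((p : ℤ) ^ j) • x := by
    intro j x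
    change ((p : ℤ) ^ j) • x ∈ LinearMap.range be.toIntLinearMap ↔ _
    rw [LinearMap.mem_range]
    rfl
  obtain ⟨n, hn⟩ := (monotone_stabilizes_iff_noetherian (R := ℤ) (M := XA)).2 inferInstance K
  obtain ⟨z, hz⟩ := hv
  obtain ⟨y₁, w, hw⟩ := hstep n z
  have hw1 : w ∈ K (n + 1) := by
    rw [hK]
    refine ⟨tC^[n] (al v) - (p : ℤ) • y₁, ?_⟩
    rw [map_sub, h1', hz, hsm, hw, map_zsmul, smul_add, smul_smul, pow_succ']
    abel
  rw [← hn (n + 1) (Nat.le_succ n), hK] at hw1
  obtain ⟨y₂, hy₂⟩ := hw1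
  have hz' : t^[n] z = be (y₁ + y₂) := by rw [hw, map_add, hy₂]
  -- (5)
  have hcn : ∀ j : ℕ, ∃ w, t^[j] v = c ^ j • v + (p : ℤ) • w := by
    intro j
    induction j with
    | zero => exact ⟨0, by simp⟩
    | succ j ih =>
      obtain ⟨w, h⟩ := ih
      obtain ⟨w0, h0⟩ := hc
      refine ⟨c ^ j • w0 + t w, ?_⟩
      rw [Function.iterate_succ_apply', h, map_add, map_zsmul, map_zsmul, h0, smul_add, smul_smul,
        smul_add, smul_smul, smul_smul, pow_succ, mul_comm (c ^ j) (p : ℤ), add_assoc]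
  obtain ⟨wn, hwn⟩ := hcn n
  refine ⟨tC^[n] (al v) - (p : ℤ) • (y₁ + y₂), n, al wn - (y₁ + y₂), ?_, ?_⟩
  · rw [map_sub, h1', hz, hsm, map_zsmul, hz', sub_self]
  · rw [h2', hwn, map_add, map_zsmul, map_zsmul, smul_sub]
    abel

end Fermat.Agent.S41
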