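import Fermat.Agent.S41.Defs

/-!
# S41 / HECKE : interface     (sub-owner: see claims 'S41/HECKE-owner'; blueprint section 2)

`A = Gamma0 N`, `C = Gamma0 (N*q)`, `D = matD q = diag(q,1)`, `D' = matU q 0 = diag(1,q)`.
-/

set_option autoImplicit false

open CongruenceSubgroup ModularGroup ModularCurve.Period
open Fermat.Agent.S16.Lower Fermat.Agent.S29
open scoped MatrixGroups

noncomputable section

namespace Fermat.Agent.S41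

theorem hcd_mul_matD (q : ℕ) (X : M2) :
    X * matD q = !![(q : ℤ) * X 0 0, X 0 1; (q : ℤ) * X 1 0, X 1 1] := by
  rw [matD]
  ext i j
  fin_cases i <;> fin_cases j <;> simp [Matrix.mul_apply, Fin.sum_univ_two, mul_comm]

theorem hcd_matD_mul (q : ℕ) (X : M2) :
    matD q * X = !![(q : ℤ) * X 0 0, (q : ℤ) * X 0 1; X 1 0, X 1 1] := by
  rw [matD]
  ext i j
  fin_cases i <;> fin_cases j <;> simp [Matrix.mul_apply, Fin.sum_univ_two]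

theorem hcd_cancel {q : ℕ} (hq : 0 < q) {X Y : M2} (h : X * matD q = Y * matD q) : X = Y := by
  rw [hcd_mul_matD, hcd_mul_matD] at h
  have hq' : (q : ℤ) ≠ 0 := by exact_mod_cast hq.ne'
  have h00 := congrFun (congrFun h 0) 0
  have h01 := congrFun (congrFun h 0) 1
  have h10 := congrFun (congrFun h 1) 0
  have h11 := congrFun (congrFun h 1) 1
  simp at h00 h01 h10 h11
  ext i j
  fin_cases i <;> fin_cases j
  · exact h00.resolve_right hq.ne'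
  · exact h01
  · exact h10.resolve_right hq.ne'
  · exact h11

theorem hcd_exists (N q : ℕ) (hq : 0 < q) (γ : Gamma0 (N * q)) : ∃ g : Gamma0 N,
    matD q * ((γ : SL(2, ℤ)) : M2) = ((g : SL(2, ℤ)) : M2) * matD q := by
  have hq' : (q : ℤ) ≠ 0 := by exact_mod_cast hq.ne'
  have hc : ((N * q : ℕ) : ℤ) ∣ (γ : SL(2, ℤ)) 1 0 :=
    (ZMod.intCast_zmod_eq_zero_iff_dvd _ _).1 (Gamma0_mem.1 γ.2)
  obtain ⟨c₁, hc₁⟩ := hc
  have hdet := Matrix.SpecialLinearGroup.det_coe (γ : SL(2, ℤ))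
  rw [Matrix.det_fin_two] at hdet
  let g : SL(2, ℤ) := ⟨!![(γ : SL(2, ℤ)) 0 0, q * (γ : SL(2, ℤ)) 0 1; N * c₁, (γ : SL(2, ℤ)) 1 1], by
    rw [Matrix.det_fin_two_of]
    rw [hc₁] at hdet
    push_cast at hdet
    linarith⟩
  have hg : g ∈ Gamma0 N := by
    rw [Gamma0_mem]
    show ((N * c₁ : ℤ) : ZMod N) = 0
    simp
  refine ⟨⟨g, hg⟩, ?_⟩
  rw [hcd_mul_matD, hcd_matD_mul]
  show _ = !![(q : ℤ) * (γ : SL(2, ℤ)) 0 0, q * (γ : SL(2, ℤ)) 0 1; (q : ℤ) * (N * c₁),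
    (γ : SL(2, ℤ)) 1 1]
  rw [hc₁]
  push_cast
  congr 3
  ring_nf

/-- [S41/H-CD] conjugation by `diag(q,1)` : `Γ₀(Nq) → Γ₀(N)`, `[[a,b],[c,d]] ↦ [[a,qb],[c/q,d]]` -/
theorem exists_cD (N q : ℕ) (hq : 0 < q) : ∃ e : Gamma0 (N * q) →* Gamma0 N,
    ∀ γ : Gamma0 (N * q), matD q * ((γ : SL(2, ℤ)) : M2) = ((e γ : SL(2, ℤ)) : M2) * matD q := by
  choose f hf using hcd_exists N q hq
  refine ⟨MonoidHom.mk' f ?_, hf⟩
  intro γ γ'
  apply Subtype.ext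
  apply Subtype.ext
  apply hcd_cancel hq
  rw [← hf]
  show matD q * (((γ : SL(2, ℤ)) * (γ' : SL(2, ℤ)) : SL(2, ℤ)) : M2) =
    (((f γ : SL(2, ℤ)) * (f γ' : SL(2, ℤ)) : SL(2, ℤ)) : M2) * matD q
  rw [Matrix.SpecialLinearGroup.coe_mul, Matrix.SpecialLinearGroup.coe_mul, ← Matrix.mul_assoc, hf,
    Matrix.mul_assoc, hf, Matrix.mul_assoc]

/-- conjugation by `diag(q,1)` (junk for `q = 0`) -/
def cD (N q : ℕ) : Gamma0 (N * q) →* Gamma0 N :=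
  if hq : 0 < q then (exists_cD N q hq).choose else 1

theorem cD_spec (N q : ℕ) (hq : 0 < q) (γ : Gamma0 (N * q)) :
    matD q * ((γ : SL(2, ℤ)) : M2) = ((cD N q γ : SL(2, ℤ)) : M2) * matD q := by
  rw [cD, dif_pos hq]
  exact (exists_cD N q hq).choose_spec γ

theorem Gamma0_mul_le (N q : ℕ) : Gamma0 (N * q) ≤ Gamma0 N := by
  intro γ hγ
  rw [Gamma0_mem] at hγ ⊢
  rw [ZMod.intCast_zmod_eq_zero_iff_dvd] at hγ ⊢
  exact dvd_trans (by push_cast; exact Dvd.intro _ rfl) hγ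

/-- the inclusion `Γ₀(Nq) → Γ₀(N)` -/
def cI (N q : ℕ) : Gamma0 (N * q) →* Gamma0 N := Subgroup.inclusion (Gamma0_mul_le N q)

/-- `C' = D C D⁻¹ = Γ₀(N) ∩ Γ⁰(q)` -/
def Cp (N q : ℕ) : Subgroup SL(2, ℤ) := ((Gamma0 N).subtype.comp (cD N q)).range

/-- `[[1,0],[n,1]]` -/
def uLow (n : ℤ) : SL(2, ℤ) := ⟨!![1, 0; n, 1], by simp [Matrix.det_fin_two_of]⟩

/-- representatives of `C \ A` -/
def rA (N q : ℕ) : Option (Fin q) → SL(2, ℤ)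
  | none => 1
  | some j => uLow N * T ^ (j : ℕ)

/-- representatives of `C' \ A` -/
def rB (N q : ℕ) : Option (Fin q) → SL(2, ℤ)
  | none => 1
  | some j => T * uLow (N * (j : ℕ))

/-- the family of `be1` -/
def famB1 (N q : ℕ) : Option (Fin q) → M2 := fun i => ((rA N q i : SL(2, ℤ)) : M2)

/-- the family of `be2` -/
def famB2 (N q : ℕ) : Option (Fin q) → M2 := fun i => matU q 0 * ((rB N q i : SL(2, ℤ)) : M2)

/-- the degeneracy maps between `XN N` and `XN (N*q)` and their Hecke relations -/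
structure Deg (N q : ℕ) [NeZero N] [NeZero (N * q)] (hq : q.Prime) (hqN : ¬ q ∣ N) where
  a1 : XN N →ₗ[ℤ] XN (N * q)
  a2 : XN N →ₗ[ℤ] XN (N * q)
  b1 : XN (N * q) →ₗ[ℤ] XN N
  b2 : XN (N * q) →ₗ[ℤ] XN N
  a1_apply : ∀ (c : XN N) (γ : Gamma0 (N * q)), (a1 c : Additive (Gamma0 (N * q)) →+ ℤ)
    (Additive.ofMul γ) = (c : Additive (Gamma0 N) →+ ℤ) (Additive.ofMul (cI N q γ))
  a2_apply : ∀ (c : XN N) (γ : Gamma0 (N * q)), (a2 c : Additive (Gamma0 (N * q)) →+ ℤ)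
    (Additive.ofMul γ) = (c : Additive (Gamma0 N) →+ ℤ) (Additive.ofMul (cD N q γ))
  b1_tr : ∀ y : XN (N * q), IsTr (Gamma0 (N * q)) (Gamma0 N) (famB1 N q)
    (y : Additive (Gamma0 (N * q)) →+ ℤ) (b1 y : Additive (Gamma0 N) →+ ℤ)
  b2_tr : ∀ y : XN (N * q), IsTr (Gamma0 (N * q)) (Gamma0 N) (famB2 N q)
    (y : Additive (Gamma0 (N * q)) →+ ℤ) (b2 y : Additive (Gamma0 N) →+ ℤ)
  /-- (Z1) -/
  b1a1 : ∀ c, b1 (a1 c) = ((q : ℤ) + 1) • c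
  b2a2 : ∀ c, b2 (a2 c) = ((q : ℤ) + 1) • c
  b1a2 : ∀ c, b1 (a2 c) = heckeX N hq hqN c
  b2a1 : ∀ c, b2 (a1 c) = heckeX N hq hqN c
  /-- (Z2) -/
  a1_T : ∀ (ℓ : ℕ) (hℓ : ℓ.Prime) (h : ¬ ℓ ∣ N) (h' : ¬ ℓ ∣ N * q) (c : XN N),
    a1 (heckeX N hℓ h c) = heckeX (N * q) hℓ h' (a1 c)
  a2_T : ∀ (ℓ : ℕ) (hℓ : ℓ.Prime) (h : ¬ ℓ ∣ N) (h' : ¬ ℓ ∣ N * q) (c : XN N),
    a2 (heckeX N hℓ h c) = heckeX (N * q) hℓ h' (a2 c)
  b1_T : ∀ (ℓ : ℕ) (hℓ : ℓ.Prime) (h : ¬ ℓ ∣ N) (h' : ¬ ℓ ∣ N * q) (y : XN (N * q)),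
    b1 (heckeX (N * q) hℓ h' y) = heckeX N hℓ h (b1 y)
  b2_T : ∀ (ℓ : ℕ) (hℓ : ℓ.Prime) (h : ¬ ℓ ∣ N) (h' : ¬ ℓ ∣ N * q) (y : XN (N * q)),
    b2 (heckeX (N * q) hℓ h' y) = heckeX N hℓ h (b2 y)
  /-- (Z3) -/
  uq : ∀ y : XN (N * q), b1 y = 0 → b2 y = 0 →
    heckeXU (N * q) hq (Dvd.intro_left N rfl) (heckeXU (N * q) hq (Dvd.intro_left N rfl) y) = y

-- [S41/HECKE] `Nonempty (Deg N q hq hqN)` is proved in `S41/Hecke/Main.lean` (`Hecke.nonempty_deg`).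

theorem hrep_mul_inv_10 (A B : SL(2, ℤ)) :
    (A * B⁻¹ : SL(2, ℤ)) 1 0 = A 1 0 * B 1 1 - A 1 1 * B 1 0 := by
  rw [Matrix.SpecialLinearGroup.coe_mul, Matrix.SpecialLinearGroup.coe_inv,
    Matrix.adjugate_fin_two, Matrix.mul_apply, Fin.sum_univ_two]
  simp
  ring

theorem hrep_mul_inv_01 (A B : SL(2, ℤ)) :
    (A * B⁻¹ : SL(2, ℤ)) 0 1 = A 0 1 * B 0 0 - A 0 0 * B 0 1 := by
  rw [Matrix.SpecialLinearGroup.coe_mul, Matrix.SpecialLinearGroup.coe_inv,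
    Matrix.adjugate_fin_two, Matrix.mul_apply, Fin.sum_univ_two]
  simp
  ring

theorem hrep_rA_some (N q : ℕ) (j : Fin q) :
    ((rA N q (some j) : SL(2, ℤ)) : M2) = !![1, ((j : ℕ) : ℤ); (N : ℤ), N * ((j : ℕ) : ℤ) + 1] := by
  show ((uLow N * T ^ (j : ℕ) : SL(2, ℤ)) : M2) = _
  rw [Matrix.SpecialLinearGroup.coe_mul, ← zpow_natCast, ModularGroup.coe_T_zpow, uLow]
  ext a b
  fin_cases a <;> fin_cases b <;> simp [Matrix.mul_apply, Fin.sum_univ_two]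

theorem hrep_rB_some (N q : ℕ) (j : Fin q) :
    ((rB N q (some j) : SL(2, ℤ)) : M2) =
      !![1 + (N : ℤ) * ((j : ℕ) : ℤ), 1; (N : ℤ) * ((j : ℕ) : ℤ), 1] := by
  show ((T * uLow (N * (j : ℕ)) : SL(2, ℤ)) : M2) = _
  rw [Matrix.SpecialLinearGroup.coe_mul, ModularGroup.coe_T, uLow]
  ext a b
  fin_cases a <;> fin_cases b <;> simp [Matrix.mul_apply, Fin.sum_univ_two]

/-- [S41/H-REP] `rA` represents `C \ A` -/
theorem rA_mem (N q : ℕ) (i : Option (Fin q)) : rA N q i ∈ Gamma0 N := by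
  rcases i with _ | j
  · exact one_mem _
  · rw [Gamma0_mem, hrep_rA_some]
    simp

/-- solving a linear congruence with a unique solution in `Fin q` -/
theorem hrep_exists_unique {q : ℕ} (hq : q.Prime) {u : ℤ} (hu : ¬ (q : ℤ) ∣ u) (v : ℤ) :
    ∃! j : Fin q, (q : ℤ) ∣ u * ((j : ℕ) : ℤ) - v := by
  have : Fact q.Prime := ⟨hq⟩
  have : NeZero q := ⟨hq.ne_zero⟩
  have hu' : ((u : ℤ) : ZMod q) ≠ 0 := by
    rwa [Ne, ZMod.intCast_zmod_eq_zero_iff_dvd]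
  have key : ∀ j : Fin q, (q : ℤ) ∣ u * ((j : ℕ) : ℤ) - v ↔
      (((j : ℕ) : ℕ) : ZMod q) = (u : ZMod q)⁻¹ * (v : ZMod q) := by
    intro j
    rw [← ZMod.intCast_zmod_eq_zero_iff_dvd]
    push_cast
    rw [sub_eq_zero]
    constructor
    · intro h
      rw [← h, ← mul_assoc, inv_mul_cancel₀ hu', one_mul]
    · intro h
      rw [h, ← mul_assoc, mul_inv_cancel₀ hu', one_mul]
  set w : ZMod q := (u : ZMod q)⁻¹ * (v : ZMod q) with hw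
  refine ⟨⟨w.val, ZMod.val_lt w⟩, ?_, ?_⟩
  · refine (key _).2 ?_
    exact ZMod.natCast_zmod_val w
  · intro j hj
    rw [key] at hj
    apply Fin.ext
    show (j : ℕ) = w.val
    rw [← hj, ZMod.val_natCast, Nat.mod_eq_of_lt j.2]

theorem rA_unique (N q : ℕ) (hq : q.Prime) (hqN : ¬ q ∣ N) (g : SL(2, ℤ)) (hg : g ∈ Gamma0 N) :
    ∃! i, g * (rA N q i)⁻¹ ∈ Gamma0 (N * q) := by
  have hc : (N : ℤ) ∣ g 1 0 := (ZMod.intCast_zmod_eq_zero_iff_dvd _ _).1 (Gamma0_mem.1 hg)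
  obtain ⟨c₁, hc₁⟩ := hc
  have hdet := Matrix.SpecialLinearGroup.det_coe g
  rw [Matrix.det_fin_two] at hdet
  have hqZ : Prime (q : ℤ) := Nat.prime_iff_prime_int.mp hq
  have hqN' : ¬ (q : ℤ) ∣ (N : ℤ) := fun h => hqN (Int.natCast_dvd_natCast.mp h)
  by_cases hN0 : N = 0
  · exact absurd (hN0 ▸ dvd_zero q) hqN
  have hN0' : (N : ℤ) ≠ 0 := by exact_mod_cast hN0
  have hnone : g * (rA N q none)⁻¹ ∈ Gamma0 (N * q) ↔ (q : ℤ) ∣ c₁ := by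
    show g * (1 : SL(2, ℤ))⁻¹ ∈ _ ↔ _
    rw [inv_one, mul_one, Gamma0_mem, ZMod.intCast_zmod_eq_zero_iff_dvd, hc₁]
    push_cast
    exact mul_dvd_mul_iff_left hN0'
  have hsome : ∀ j : Fin q, g * (rA N q (some j))⁻¹ ∈ Gamma0 (N * q) ↔
      (q : ℤ) ∣ (N * c₁) * ((j : ℕ) : ℤ) - (g 1 1 - c₁) := by
    intro j
    rw [Gamma0_mem, ZMod.intCast_zmod_eq_zero_iff_dvd, hrep_mul_inv_10, hrep_rA_some, hc₁]
    have : (N : ℤ) * c₁ * (!![1, ((j : ℕ) : ℤ); (N : ℤ), N * ((j : ℕ) : ℤ) + 1] : M2) 1 1 -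
        g 1 1 * (!![1, ((j : ℕ) : ℤ); (N : ℤ), N * ((j : ℕ) : ℤ) + 1] : M2) 1 0 =
        N * ((N * c₁) * ((j : ℕ) : ℤ) - (g 1 1 - c₁)) := by
      simp
      ring
    rw [this]
    push_cast
    exact mul_dvd_mul_iff_left hN0'
  by_cases h : (q : ℤ) ∣ c₁
  · refine ⟨none, hnone.2 h, ?_⟩
    rintro (_ | j) hj
    · rfl
    · exfalso
      rw [hsome] at hj
      have h1 : (q : ℤ) ∣ g 1 1 := by
        have h2 : (q : ℤ) ∣ (N * c₁) * ((j : ℕ) : ℤ) + c₁ :=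
          dvd_add (Dvd.dvd.mul_right (Dvd.dvd.mul_left h _) _) h
        have h3 := dvd_sub h2 hj
        have : (N * c₁) * ((j : ℕ) : ℤ) + c₁ - ((N * c₁) * ((j : ℕ) : ℤ) - (g 1 1 - c₁)) = g 1 1 := by
          ring
        rwa [this] at h3
      have h4 : (q : ℤ) ∣ 1 := by
        rw [← hdet, hc₁]
        exact dvd_sub (Dvd.dvd.mul_left h1 _) (Dvd.dvd.mul_left (Dvd.dvd.mul_left h _) _)
      exact hqZ.not_isUnit (isUnit_of_dvd_one h4)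
  · have hu : ¬ (q : ℤ) ∣ N * c₁ := fun h' => (hqZ.dvd_or_dvd h').elim hqN' h
    obtain ⟨j, hj, hj'⟩ := hrep_exists_unique hq hu (g 1 1 - c₁)
    refine ⟨some j, (hsome j).2 hj, ?_⟩
    rintro (_ | j') hj''
    · exact absurd (hnone.1 hj'') h
    · rw [hj' j' ((hsome j').1 hj'')]

/-- [S41/H-REP] `rB` represents `C' \ A` -/
theorem rB_mem (N q : ℕ) (i : Option (Fin q)) : rB N q i ∈ Gamma0 N := by
  rcases i with _ | j
  · exact one_mem _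
  · rw [Gamma0_mem, hrep_rB_some]
    simp

theorem hrep_mem_Cp (N q : ℕ) (hq : 0 < q) (h : SL(2, ℤ)) :
    h ∈ Cp N q ↔ h ∈ Gamma0 N ∧ (q : ℤ) ∣ h 0 1 := by
  constructor
  · rintro ⟨γ, rfl⟩
    refine ⟨(cD N q γ).2, ?_⟩
    have h1 := cD_spec N q hq γ
    rw [hcd_mul_matD, hcd_matD_mul] at h1
    have h01 := congrFun (congrFun h1 0) 1
    simp at h01
    exact ⟨_, h01.symm⟩
  · rintro ⟨hN, b₁, hb₁⟩
    have hc : (N : ℤ) ∣ h 1 0 := (ZMod.intCast_zmod_eq_zero_iff_dvd _ _).1 (Gamma0_mem.1 hN)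
    have hdet := Matrix.SpecialLinearGroup.det_coe h
    rw [Matrix.det_fin_two] at hdet
    let γ : SL(2, ℤ) := ⟨!![h 0 0, b₁; q * h 1 0, h 1 1], by
      rw [Matrix.det_fin_two_of]
      rw [hb₁] at hdet
      linarith⟩
    have hγ : γ ∈ Gamma0 (N * q) := by
      rw [Gamma0_mem, ZMod.intCast_zmod_eq_zero_iff_dvd]
      show ((N * q : ℕ) : ℤ) ∣ q * h 1 0
      push_cast
      rw [mul_comm (N : ℤ)]
      exact mul_dvd_mul_left _ hc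
    refine ⟨⟨γ, hγ⟩, ?_⟩
    apply Subtype.ext
    apply hcd_cancel hq
    show ((cD N q ⟨γ, hγ⟩ : SL(2, ℤ)) : M2) * matD q = (h : M2) * matD q
    rw [← cD_spec N q hq, hcd_mul_matD, hcd_matD_mul]
    show !![(q : ℤ) * h 0 0, q * b₁; q * h 1 0, h 1 1] = _
    rw [hb₁]

theorem rB_unique (N q : ℕ) (hq : q.Prime) (hqN : ¬ q ∣ N) (g : SL(2, ℤ)) (hg : g ∈ Gamma0 N) :
    ∃! i, g * (rB N q i)⁻¹ ∈ Cp N q := by
  have hdet := Matrix.SpecialLinearGroup.det_coe g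
  rw [Matrix.det_fin_two] at hdet
  have hqZ : Prime (q : ℤ) := Nat.prime_iff_prime_int.mp hq
  have hqN' : ¬ (q : ℤ) ∣ (N : ℤ) := fun h => hqN (Int.natCast_dvd_natCast.mp h)
  have hmem : ∀ i, g * (rB N q i)⁻¹ ∈ Cp N q ↔ (q : ℤ) ∣ (g * (rB N q i)⁻¹ : SL(2, ℤ)) 0 1 := by
    intro i
    rw [hrep_mem_Cp N q hq.pos]
    exact and_iff_right ((Gamma0 N).mul_mem hg ((Gamma0 N).inv_mem (rB_mem N q i)))
  have hnone : g * (rB N q none)⁻¹ ∈ Cp N q ↔ (q : ℤ) ∣ g 0 1 := by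
    rw [hmem]
    show (q : ℤ) ∣ (g * (1 : SL(2, ℤ))⁻¹ : SL(2, ℤ)) 0 1 ↔ _
    rw [inv_one, mul_one]
  have hsome : ∀ j : Fin q, g * (rB N q (some j))⁻¹ ∈ Cp N q ↔
      (q : ℤ) ∣ (N * g 0 1) * ((j : ℕ) : ℤ) - (g 0 0 - g 0 1) := by
    intro j
    rw [hmem, hrep_mul_inv_01, hrep_rB_some]
    have : g 0 1 * (!![1 + (N : ℤ) * ((j : ℕ) : ℤ), 1; (N : ℤ) * ((j : ℕ) : ℤ), 1] : M2) 0 0 -
        g 0 0 * (!![1 + (N : ℤ) * ((j : ℕ) : ℤ), 1; (N : ℤ) * ((j : ℕ) : ℤ), 1] : M2) 0 1 =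
        (N * g 0 1) * ((j : ℕ) : ℤ) - (g 0 0 - g 0 1) := by
      simp
      ring
    rw [this]
  by_cases h : (q : ℤ) ∣ g 0 1
  · refine ⟨none, hnone.2 h, ?_⟩
    rintro (_ | j) hj
    · rfl
    · exfalso
      rw [hsome] at hj
      have h1 : (q : ℤ) ∣ g 0 0 := by
        have h2 : (q : ℤ) ∣ (N * g 0 1) * ((j : ℕ) : ℤ) + g 0 1 :=
          dvd_add (Dvd.dvd.mul_right (Dvd.dvd.mul_left h _) _) h
        have h3 := dvd_sub h2 hj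
        have : (N * g 0 1) * ((j : ℕ) : ℤ) + g 0 1 -
            ((N * g 0 1) * ((j : ℕ) : ℤ) - (g 0 0 - g 0 1)) = g 0 0 := by
          ring
        rwa [this] at h3
      have h4 : (q : ℤ) ∣ 1 := by
        rw [← hdet]
        exact dvd_sub (Dvd.dvd.mul_right h1 _) (Dvd.dvd.mul_right h _)
      exact hqZ.not_isUnit (isUnit_of_dvd_one h4)
  · have hu : ¬ (q : ℤ) ∣ N * g 0 1 := fun h' => (hqZ.dvd_or_dvd h').elim hqN' h
    obtain ⟨j, hj, hj'⟩ := hrep_exists_unique hq hu (g 0 0 - g 0 1)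
    refine ⟨some j, (hsome j).2 hj, ?_⟩
    rintro (_ | j') hj''
    · exact absurd (hnone.1 hj'') h
    · rw [hj' j' ((hsome j').1 hj'')]

theorem hswap_conj {Γ : Subgroup SL(2, ℤ)} {R : Type} [AddCommGroup R] (x : Additive Γ →+ R)
    (g h : Γ) : x (Additive.ofMul (g * h * g⁻¹)) = x (Additive.ofMul h) := by
  rw [ofMul_mul, ofMul_mul, ofMul_inv, map_add, map_add, map_neg]
  abel

theorem hswap_inv_mul (g : SL(2, ℤ)) : ((g⁻¹ : SL(2, ℤ)) : M2) * (g : M2) = 1 := by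
  rw [← Matrix.SpecialLinearGroup.coe_mul, inv_mul_cancel, Matrix.SpecialLinearGroup.coe_one]

theorem hswap_mul_inv (g : SL(2, ℤ)) : (g : M2) * ((g⁻¹ : SL(2, ℤ)) : M2) = 1 := by
  rw [← Matrix.SpecialLinearGroup.coe_mul, mul_inv_cancel, Matrix.SpecialLinearGroup.coe_one]

theorem hswap_matU_mul_matD (q : ℕ) : matU q 0 * matD q = (q : ℤ) • (1 : M2) := by
  rw [matU, matD]
  ext i j
  fin_cases i <;> fin_cases j <;> simp [Matrix.mul_apply, Fin.sum_univ_two]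

theorem hswap_matD_mul_matU (q : ℕ) : matD q * matU q 0 = (q : ℤ) • (1 : M2) := by
  rw [matU, matD]
  ext i j
  fin_cases i <;> fin_cases j <;> simp [Matrix.mul_apply, Fin.sum_univ_two]

theorem hswap_smul_cancel {q : ℕ} (hq : 0 < q) {X Y : M2} (h : (q : ℤ) • X = (q : ℤ) • Y) :
    X = Y := by
  have hq' : (q : ℤ) ≠ 0 := by exact_mod_cast hq.ne'
  ext i j
  have := congrFun (congrFun h i) j
  simpa [hq.ne'] using this

/-- from `D γ = e D` to `γ D' = D' e` -/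
theorem hswap_dual {q : ℕ} (hq : 0 < q) {γ e : M2} (h : matD q * γ = e * matD q) :
    γ * matU q 0 = matU q 0 * e := by
  apply hswap_smul_cancel hq
  calc (q : ℤ) • (γ * matU q 0) = (matU q 0 * matD q) * γ * matU q 0 := by
        rw [hswap_matU_mul_matD, Matrix.smul_mul, Matrix.one_mul, Matrix.smul_mul]
    _ = matU q 0 * (matD q * γ) * matU q 0 := by rw [Matrix.mul_assoc (matU q 0)]
    _ = matU q 0 * e * (matD q * matU q 0) := by rw [h]; simp only [Matrix.mul_assoc]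
    _ = (q : ℤ) • (matU q 0 * e) := by
        rw [hswap_matD_mul_matU, Matrix.mul_smul, Matrix.mul_one]

/-- [S41/H-SWAP] Atkin-Lehner: the kernel of `(al1, al2)` is stable under the swap (lead's remark (i)):
`W = g D`, `D W = q g'`, `g = [[a',b'],[N c',q d']]`, `g' = [[q a',b'],[N c',d']] ∈ A` (`q a' d' - N b' c' = 1`);
for `γ ∈ C`, `γ' = W γ W⁻¹ ∈ C`, `cI γ' = g (cD γ) g⁻¹`, `cD γ' = g' (cI γ) g'⁻¹`. -/
theorem swap (N q : ℕ) (hq : q.Prime) (hqN : ¬ q ∣ N) {R : Type} [AddCommGroup R]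
    (x₁ x₂ : Additive (Gamma0 N) →+ R)
    (h : ∀ γ : Gamma0 (N * q), x₁ (Additive.ofMul (cI N q γ)) + x₂ (Additive.ofMul (cD N q γ)) = 0)
    (γ : Gamma0 (N * q)) :
    x₂ (Additive.ofMul (cI N q γ)) + x₁ (Additive.ofMul (cD N q γ)) = 0 := by
  have hcop : IsCoprime (q : ℤ) (N : ℤ) :=
    Nat.isCoprime_iff_coprime.mpr ((Nat.Prime.coprime_iff_not_dvd hq).mpr hqN)
  obtain ⟨s, t, hst⟩ := hcop
  let g : SL(2, ℤ) := ⟨!![s, -t; (N : ℤ), (q : ℤ)], by rw [Matrix.det_fin_two_of]; linarith⟩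
  let g' : SL(2, ℤ) := ⟨!![(q : ℤ) * s, -t; (N : ℤ), 1], by rw [Matrix.det_fin_two_of]; linarith⟩
  have hg : g ∈ Gamma0 N := by
    rw [Gamma0_mem]
    show (((N : ℤ) : ℤ) : ZMod N) = 0
    simp
  have hg' : g' ∈ Gamma0 N := by
    rw [Gamma0_mem]
    show (((N : ℤ) : ℤ) : ZMod N) = 0
    simp
  -- `D g = g' D'`
  have h1 : matD q * (g : M2) = (g' : M2) * matU q 0 := by
    show matD q * !![s, -t; (N : ℤ), (q : ℤ)] = !![(q : ℤ) * s, -t; (N : ℤ), 1] * matU q 0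
    rw [matD, matU]
    ext i j
    fin_cases i <;> fin_cases j <;> simp [Matrix.mul_apply, Fin.sum_univ_two]
    ring
  -- `g'⁻¹ D = D' g⁻¹`
  have h2 : ((g'⁻¹ : SL(2, ℤ)) : M2) * matD q = matU q 0 * ((g⁻¹ : SL(2, ℤ)) : M2) := by
    calc ((g'⁻¹ : SL(2, ℤ)) : M2) * matD q
        = ((g'⁻¹ : SL(2, ℤ)) : M2) * (matD q * (g : M2)) * ((g⁻¹ : SL(2, ℤ)) : M2) := by
          rw [Matrix.mul_assoc, Matrix.mul_assoc, hswap_mul_inv, Matrix.mul_one]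
      _ = matU q 0 * ((g⁻¹ : SL(2, ℤ)) : M2) := by
          rw [h1, ← Matrix.mul_assoc, hswap_inv_mul, Matrix.one_mul]
  have h3 := hswap_dual hq.pos (cD_spec N q hq.pos γ)
  set e : SL(2, ℤ) := (cD N q γ : SL(2, ℤ)) with he
  set γ₀ : SL(2, ℤ) := (γ : SL(2, ℤ)) with hγ₀
  -- the main relation
  have h4 : matD q * ((g * e * g⁻¹ : SL(2, ℤ)) : M2) = ((g' * γ₀ * g'⁻¹ : SL(2, ℤ)) : M2) * matD q := by
    simp only [Matrix.SpecialLinearGroup.coe_mul]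
    calc matD q * ((g : M2) * (e : M2) * ((g⁻¹ : SL(2, ℤ)) : M2))
        = (matD q * (g : M2)) * (e : M2) * ((g⁻¹ : SL(2, ℤ)) : M2) := by
          simp only [Matrix.mul_assoc]
      _ = (g' : M2) * (matU q 0 * (e : M2)) * ((g⁻¹ : SL(2, ℤ)) : M2) := by
          rw [h1]; simp only [Matrix.mul_assoc]
      _ = (g' : M2) * (γ₀ : M2) * (matU q 0 * ((g⁻¹ : SL(2, ℤ)) : M2)) := by
          rw [← h3]; simp only [Matrix.mul_assoc]
      _ = (g' : M2) * (γ₀ : M2) * ((g'⁻¹ : SL(2, ℤ)) : M2) * matD q := by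
          rw [← h2]; simp only [Matrix.mul_assoc]
  have hγN : γ₀ ∈ Gamma0 N := Gamma0_mul_le N q γ.2
  have hB : g' * γ₀ * g'⁻¹ ∈ Gamma0 N :=
    (Gamma0 N).mul_mem ((Gamma0 N).mul_mem hg' hγN) ((Gamma0 N).inv_mem hg')
  have hA : g * e * g⁻¹ ∈ Gamma0 (N * q) := by
    rw [Gamma0_mem, ZMod.intCast_zmod_eq_zero_iff_dvd]
    have h5 := h4
    rw [hcd_mul_matD, hcd_matD_mul] at h5
    have h10 := congrFun (congrFun h5 1) 0
    simp only [Matrix.of_apply, Matrix.cons_val_zero, Matrix.cons_val_one] at h10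
    have h10' : (g * e * g⁻¹ : SL(2, ℤ)) 1 0 = (q : ℤ) * (g' * γ₀ * g'⁻¹ : SL(2, ℤ)) 1 0 := h10
    rw [h10']
    have hc : (N : ℤ) ∣ (g' * γ₀ * g'⁻¹ : SL(2, ℤ)) 1 0 :=
      (ZMod.intCast_zmod_eq_zero_iff_dvd _ _).1 (Gamma0_mem.1 hB)
    push_cast
    rw [mul_comm (N : ℤ)]
    exact mul_dvd_mul_left _ hc
  have h6 := h ⟨g * e * g⁻¹, hA⟩
  have h7 : cI N q ⟨g * e * g⁻¹, hA⟩ = (⟨g, hg⟩ : Gamma0 N) * cD N q γ * (⟨g, hg⟩ : Gamma0 N)⁻¹ :=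
    Subtype.ext rfl
  have h8 : cD N q ⟨g * e * g⁻¹, hA⟩ =
      (⟨g', hg'⟩ : Gamma0 N) * cI N q γ * (⟨g', hg'⟩ : Gamma0 N)⁻¹ := by
    apply Subtype.ext
    apply Subtype.ext
    apply hcd_cancel hq.pos
    rw [← cD_spec N q hq.pos]
    exact h4
  rw [h7, h8, hswap_conj, hswap_conj] at h6
  rw [add_comm]
  exact h6

end Fermat.Agent.S41
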