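import Fermat.Agent.S41.Defs
import Fermat.Agent.S41.Pair.Main
import Fermat.Agent.S41.Pair.Inv6

/-!
# S41 / PAIR : interface     (sub-owner helper6; blueprint section 3)
-/

set_option autoImplicit false

open CongruenceSubgroup ModularGroup ModularCurve.Period
open Fermat.Agent.S16.Lower Fermat.Agent.S29
open scoped MatrixGroups

noncomputable section

namespace Fermat.Agent.S41

/-- the family of pairings on `PH p Γ` -/
structure Pairing (p : ℕ) [Fact p.Prime] where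
  B : ∀ Γ : Subgroup SL(2, ℤ), PH p Γ →ₗ[ZMod p] PH p Γ →ₗ[ZMod p] ZMod p
  antisymm : ∀ (Γ : Subgroup SL(2, ℤ)), Γ.FiniteIndex → (-1 : SL(2, ℤ)) ∈ Γ →
    ∀ x y : PH p Γ, B Γ x y = - B Γ y x
  nondeg : ∀ (Γ : Subgroup SL(2, ℤ)), Γ.FiniteIndex → (-1 : SL(2, ℤ)) ∈ Γ →
    ∀ y : PH p Γ, (∀ x, B Γ x y = 0) → y = 0
  /-- (P) restriction and transfer are adjoint -/
  res_tr : ∀ (Γ' Γ : Subgroup SL(2, ℤ)) (hle : Γ' ≤ Γ), Γ'.FiniteIndex → (-1 : SL(2, ℤ)) ∈ Γ' →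
    ∀ {ι : Type} [Fintype ι] (r : ι → SL(2, ℤ)), (∀ i, r i ∈ Γ) →
    (∀ g ∈ Γ, ∃! i, g * (r i)⁻¹ ∈ Γ') →
    ∀ (x : PH p Γ) (x' : PH p Γ') (y : PH p Γ') (y' : PH p Γ),
    (∀ γ : Γ', (x' : Additive Γ' →+ ZMod p) (Additive.ofMul γ) =
      (x : Additive Γ →+ ZMod p) (Additive.ofMul (Subgroup.inclusion hle γ))) →
    IsTr Γ' Γ (fun i => ((r i : SL(2, ℤ)) : M2)) (y : Additive Γ' →+ ZMod p)
      (y' : Additive Γ →+ ZMod p) →
    B Γ' x' y = B Γ x y'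
  /-- (INV) invariance under conjugation by `diag(ℓ,1)` -/
  conj : ∀ (ℓ : ℕ), ℓ.Prime → ∀ (Γ Γ' : Subgroup SL(2, ℤ)), Γ.FiniteIndex → Γ'.FiniteIndex →
    (-1 : SL(2, ℤ)) ∈ Γ → ∀ (e : Γ ≃* Γ'),
    (∀ γ : Γ, matD ℓ * ((γ : SL(2, ℤ)) : M2) = ((e γ : SL(2, ℤ)) : M2) * matD ℓ) →
    ∀ (x y : PH p Γ') (x' y' : PH p Γ),
    (∀ γ : Γ, (x' : Additive Γ →+ ZMod p) (Additive.ofMul γ) =
      (x : Additive Γ' →+ ZMod p) (Additive.ofMul (e γ))) →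
    (∀ γ : Γ, (y' : Additive Γ →+ ZMod p) (Additive.ofMul γ) =
      (y : Additive Γ' →+ ZMod p) (Additive.ofMul (e γ))) →
    B Γ x' y' = B Γ' x y

/-- [S41/PAIR] -/
theorem nonempty_pairing (p : ℕ) [Fact p.Prime] (hp2 : p ≠ 2) : Nonempty (Pairing p) := by
  refine ⟨{ B := fun Γ => Pair.Bf p Γ
            antisymm := ?_
            nondeg := ?_
            res_tr := ?_
            conj := ?_ }⟩
  · intro Γ hfin _ x y
    exact Pair.Bf_antisymm x y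
  · intro Γ hfin hneg y h
    exact Pair.Bf_nondeg hneg y h
  · intro Γ' Γ hle hfin _ ι _ r hr hr' x x' y y' hx hy
    exact Pair.Bf_res_tr hle r hr hr' x x' y y' hx hy
  · intro ℓ hℓ Γ Γ' hfin hfin' hneg e he x y x' y' hx hy
    exact Pair.Bf_conj_of hp2 hℓ.pos hneg e he
      (fun κ κ' F wS wU uS uU uSd uUd hF hHF hH hHd =>
        Pair.inv6_Pv_conj hp2 hℓ.one_lt hneg he hF hHF hH hHd) x y x' y' hx hy

end Fermat.Agent.S41
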