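import Fermat.Agent.S41.Red
import Fermat.Agent.S41.IfPair
import Fermat.Agent.S41.IfHecke

/-!
# S41 / ADJ : adjointness of the degeneracy maps, self-adjointness of `T_ℓ`     [key S41/ADJ]

`adj1` : `P.res_tr` with `Γ' = C = Gamma0 (N*q)`, `Γ = A = Gamma0 N`, `r = rA N q` (`rA_mem`, `rA_unique`), `x = red x`, `x' = red (a1 x)` (`a1_apply`; `cI = Subgroup.inclusion`),
  `y = red y`, `y' = red (b1 y)`, `IsTr` from `Dg.b1_tr y` and `IsTr.redHom` (`famB1 = fun i => (rA N q i : M2)` by `rfl`).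
`adj2` : `C' = Cp N q`; `e : C ≃* C'` = `cD` corestricted to its range (injective: `cD_spec` + cancel `matD q`, det ≠ 0).  `-1 ∈ C`, `C`, `C'` of finite index (`C'` contains `Gamma(N q)`; or: `C' ⊇` image ...; `Subgroup.FiniteIndex` of `Gamma0`: `S21.DimBound.finite_quotient_Gamma0`).
  `y₁ := red y ∘ e⁻¹ ∈ PH p C'` (trace and order are preserved by `e`: `S48.M.trace_eq_of_conj`-like, `map_pow`), `x₁ := red x|C' ∈ PH p C'`.
  `P.conj q hq C C' e` : `B C (red (a2 x)) (red y) = B C' x₁ y₁` (`a2_apply`).   `P.res_tr C' A (rB N q)` : `B C' x₁ y₁ = B A (red x) (red (b2 y))`; `IsTr C' A rB y₁ (red (b2 y))`: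
  from `D : HD C' A rB γ` build `HD C A (famB2 N q) γ` with `δ i = e⁻¹ (D.δ i)`: `D' r'_i γ = D' δ'_i r'_{σ i} = (e⁻¹ δ'_i) D' r'_{σ i}` since `D' δ' = (e⁻¹ δ') D'` (`D' = matU q 0`, `D' * matD q = q`; from `cD_spec`), then `Dg.b2_tr`.
`T_selfadj` : `Dg` at the pair `(N, ℓ)`: `T = b1 a2 = b2 a1`:  `B (T x) y = - B y (b1 (a2 x)) = - B_C (a1 y) (a2 x) = B_C (a2 x) (a1 y) = B x (b2 (a1 y)) = B x (T y)`.
-/

set_option autoImplicit false

open CongruenceSubgroup ModularCurve.Period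
open Fermat.Agent.S16.Lower Fermat.Agent.S29
open scoped MatrixGroups

noncomputable section

namespace Fermat.Agent.S41

variable {p : ℕ} [Fact p.Prime] (P : Pairing p) {N q : ℕ} [NeZero N] [NeZero (N * q)]
  {hq : q.Prime} {hqN : ¬ q ∣ N} (Dg : Deg N q hq hqN)

theorem neg_one_mem_Gamma0 (M : ℕ) : (-1 : SL(2, ℤ)) ∈ Gamma0 M := by
  rw [Gamma0_mem]
  simp

theorem finiteIndex_Gamma0 (M : ℕ) [NeZero M] : (Gamma0 M).FiniteIndex := inferInstance

include hq hqN in
theorem adj1 (x : XN N) (y : XN (N * q)) :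
    P.B (Gamma0 (N * q)) (red p (N * q) (Dg.a1 x)) (red p (N * q) y) =
      P.B (Gamma0 N) (red p N x) (red p N (Dg.b1 y)) := by
  refine P.res_tr (Gamma0 (N * q)) (Gamma0 N) (Gamma0_mul_le N q) (finiteIndex_Gamma0 (N * q))
    (neg_one_mem_Gamma0 (N * q)) (rA N q) (rA_mem N q) (rA_unique N q hq hqN)
    (red p N x) (red p (N * q) (Dg.a1 x)) (red p (N * q) y) (red p N (Dg.b1 y)) ?_ ?_
  · intro γ
    rw [red_apply, red_apply, Dg.a1_apply]
    rfl
  · exact (Dg.b1_tr y).redHom p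

theorem adj2_cancel_left {q : ℕ} (hq : 0 < q) {X Y : M2} (h : matD q * X = matD q * Y) : X = Y := by
  rw [hcd_matD_mul, hcd_matD_mul] at h
  have h00 := congrFun (congrFun h 0) 0
  have h01 := congrFun (congrFun h 0) 1
  have h10 := congrFun (congrFun h 1) 0
  have h11 := congrFun (congrFun h 1) 1
  simp at h00 h01 h10 h11
  ext i j
  fin_cases i <;> fin_cases j
  · exact h00.resolve_right hq.ne'
  · exact h01.resolve_right hq.ne'
  · exact h10
  · exact h11

theorem adj2_injective (N q : ℕ) (hq : 0 < q) :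
    Function.Injective ((Gamma0 N).subtype.comp (cD N q)) := by
  intro γ γ' h
  apply Subtype.ext
  apply Subtype.ext
  apply adj2_cancel_left hq
  rw [cD_spec N q hq, cD_spec N q hq]
  have h' : ((cD N q γ : Gamma0 N) : SL(2, ℤ)) = ((cD N q γ' : Gamma0 N) : SL(2, ℤ)) := h
  rw [h']

/-- `e : C ≃* C'` -/
def adj2E (N q : ℕ) (hq : 0 < q) : Gamma0 (N * q) ≃* Cp N q :=
  MonoidHom.ofInjective (adj2_injective N q hq)

theorem adj2E_coe (N q : ℕ) (hq : 0 < q) (γ : Gamma0 (N * q)) :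
    ((adj2E N q hq γ : Cp N q) : SL(2, ℤ)) = ((cD N q γ : Gamma0 N) : SL(2, ℤ)) := rfl

theorem adj2E_spec (N q : ℕ) (hq : 0 < q) (γ : Gamma0 (N * q)) :
    matD q * ((γ : SL(2, ℤ)) : M2) = ((adj2E N q hq γ : SL(2, ℤ)) : M2) * matD q := by
  rw [adj2E_coe]
  exact cD_spec N q hq γ

theorem adj2_trace (N q : ℕ) (hq : 0 < q) (γ : Gamma0 (N * q)) :
    ((γ : SL(2, ℤ)) : M2).trace = ((adj2E N q hq γ : SL(2, ℤ)) : M2).trace := by
  have h := adj2E_spec N q hq γ
  rw [hcd_matD_mul, hcd_mul_matD] at h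
  have h00 := congrFun (congrFun h 0) 0
  have h11 := congrFun (congrFun h 1) 1
  simp at h00 h11
  rw [Matrix.trace_fin_two, Matrix.trace_fin_two]
  have h00' := h00.resolve_right hq.ne'
  exact congrArg₂ (· + ·) h00' h11

theorem Cp_le (N q : ℕ) : Cp N q ≤ Gamma0 N := by
  rintro _ ⟨γ, rfl⟩
  exact (cD N q γ).2

theorem neg_one_mem_Cp (N q : ℕ) (hq : 0 < q) : (-1 : SL(2, ℤ)) ∈ Cp N q := by
  rw [hrep_mem_Cp N q hq]
  refine ⟨neg_one_mem_Gamma0 N, ?_⟩
  simp

theorem finiteIndex_Cp (N q : ℕ) [NeZero (N * q)] (hq : 0 < q) : (Cp N q).FiniteIndex := by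
  have hle : Gamma (N * q) ≤ Cp N q := by
    intro g hg
    rw [Gamma_mem] at hg
    obtain ⟨-, h01, h10, -⟩ := hg
    rw [ZMod.intCast_zmod_eq_zero_iff_dvd] at h01 h10
    rw [hrep_mem_Cp N q hq, Gamma0_mem, ZMod.intCast_zmod_eq_zero_iff_dvd]
    constructor
    · exact dvd_trans (by push_cast; exact Dvd.intro _ rfl) h10
    · exact dvd_trans (by push_cast; exact Dvd.intro_left _ rfl) h01
  exact Subgroup.finiteIndex_of_le hle

/-- restriction of an element of `PH p Γ` to a subgroup -/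
def adj2Res {Γ' Γ : Subgroup SL(2, ℤ)} (hle : Γ' ≤ Γ) (x : PH p Γ) : PH p Γ' :=
  ⟨(x : Additive Γ →+ ZMod p).comp (MonoidHom.toAdditive (Subgroup.inclusion hle)), by
    intro γ hγ
    refine x.2 (Subgroup.inclusion hle γ) ?_
    rcases hγ with hγ | hγ
    · exact Or.inl hγ
    · refine Or.inr ?_
      rw [← map_pow, hγ, map_one]⟩

/-- transport of an element of `PH p C` to `C'` -/
def adj2Tr (N q : ℕ) (hq : 0 < q) (y : PH p (Gamma0 (N * q))) : PH p (Cp N q) :=
  ⟨(y : Additive (Gamma0 (N * q)) →+ ZMod p).comp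
      (MonoidHom.toAdditive (adj2E N q hq).symm.toMonoidHom), by
    intro γ hγ
    refine y.2 ((adj2E N q hq).symm γ) ?_
    rcases hγ with hγ | hγ
    · refine Or.inl ?_
      rw [adj2_trace N q hq, MulEquiv.apply_symm_apply]
      exact hγ
    · refine Or.inr ?_
      rw [← map_pow, hγ, map_one]⟩

include hqN in
theorem adj2 (x : XN N) (y : XN (N * q)) :
    P.B (Gamma0 (N * q)) (red p (N * q) (Dg.a2 x)) (red p (N * q) y) =
      P.B (Gamma0 N) (red p N x) (red p N (Dg.b2 y)) := by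
  have hq0 : 0 < q := hq.pos
  have h1 : P.B (Gamma0 (N * q)) (red p (N * q) (Dg.a2 x)) (red p (N * q) y) =
      P.B (Cp N q) (adj2Res (Cp_le N q) (red p N x)) (adj2Tr N q hq0 (red p (N * q) y)) := by
    refine P.conj q hq (Gamma0 (N * q)) (Cp N q) (finiteIndex_Gamma0 (N * q))
      (finiteIndex_Cp N q hq0) (neg_one_mem_Gamma0 (N * q)) (adj2E N q hq0) (adj2E_spec N q hq0)
      _ _ _ _ ?_ ?_
    · intro γ
      rw [red_apply, Dg.a2_apply]
      rfl
    · intro γ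
      show _ = (red p (N * q) y : Additive (Gamma0 (N * q)) →+ ZMod p)
        (Additive.ofMul ((adj2E N q hq0).symm (adj2E N q hq0 γ)))
      rw [MulEquiv.symm_apply_apply]
  rw [h1]
  refine P.res_tr (Cp N q) (Gamma0 N) (Cp_le N q) (finiteIndex_Cp N q hq0) (neg_one_mem_Cp N q hq0)
    (rB N q) (rB_mem N q) (rB_unique N q hq hqN) _ _ _ _ ?_ ?_
  · intro γ
    rfl
  · intro γ D
    let D2 : HD (Gamma0 (N * q)) (Gamma0 N) (famB2 N q) γ :=
      { σ := D.σ
        δ := fun i => (adj2E N q hq0).symm (D.δ i)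
        rel := by
          intro i
          have hd := hswap_dual hq0 (adj2E_spec N q hq0 ((adj2E N q hq0).symm (D.δ i)))
          rw [MulEquiv.apply_symm_apply] at hd
          show matU q 0 * ((rB N q i : SL(2, ℤ)) : M2) * _ = _ * (matU q 0 * _)
          rw [Matrix.mul_assoc, D.rel i, ← Matrix.mul_assoc, ← hd, Matrix.mul_assoc] }
    exact (Dg.b2_tr y).redHom p γ D2

include Dg in
theorem T_selfadj (x y : XN N) :
    P.B (Gamma0 N) (red p N (heckeX N hq hqN x)) (red p N y) =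
      P.B (Gamma0 N) (red p N x) (red p N (heckeX N hq hqN y)) := by
  have hA := P.antisymm (Gamma0 N) (finiteIndex_Gamma0 N) (neg_one_mem_Gamma0 N)
  have hC := P.antisymm (Gamma0 (N * q)) (finiteIndex_Gamma0 (N * q)) (neg_one_mem_Gamma0 (N * q))
  rw [hA, ← Dg.b1a2 x, ← adj1 P Dg, hC, neg_neg, adj2 P Dg, Dg.b2a1]

end Fermat.Agent.S41
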