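import Fermat.Agent.S41.Ker
import Fermat.Agent.S41.Adj
import Fermat.Agent.S41.Abs
import Fermat.Agent.S41.Hecke.Main

/-!
# S41 / COH : cohomological level raising     (helper28; blueprint section 1)
-/

set_option autoImplicit false

open CongruenceSubgroup ModularCurve.Period
open Fermat.Agent.S16.Lower Fermat.Agent.S29
open scoped MatrixGroups

noncomputable section

namespace Fermat.Agent.S41

variable {p : ℕ} [Fact p.Prime] {N q : ℕ} [NeZero N] [NeZero (N * q)]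
  {hq : q.Prime} {hqN : ¬ q ∣ N}

/-- `T_ℓ - ℓ - 1` on the lattice -/
def tauX (M : ℕ) [NeZero M] {ℓ : ℕ} (hℓ : ℓ.Prime) (h : ¬ ℓ ∣ M) : XN M →ₗ[ℤ] XN M :=
  heckeX M hℓ h - ((ℓ : ℤ) + 1) • LinearMap.id

theorem tauX_apply (M : ℕ) [NeZero M] {ℓ : ℕ} (hℓ : ℓ.Prime) (h : ¬ ℓ ∣ M) (c : XN M) :
    tauX M hℓ h c = heckeX M hℓ h c - ((ℓ : ℤ) + 1) • c := rfl

theorem red_tauX (M : ℕ) [NeZero M] {ℓ : ℕ} (hℓ : ℓ.Prime) (h : ¬ ℓ ∣ M) (c : XN M) :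
    red p M (tauX M hℓ h c) = Tbar p M hℓ h (red p M c) + (-((ℓ : ZMod p) + 1)) • red p M c := by
  rw [tauX_apply, sub_eq_add_neg, ← neg_smul, map_add, Tbar_red, red_zsmul]
  push_cast
  rfl

/-- dual Ihara lemma -/
theorem dual_ihara (hp2 : p ≠ 2) (P : Pairing p) (Dg : Deg N q hq hqN) {ℓ : ℕ} (hℓ : ℓ.Prime)
    (h : ¬ ℓ ∣ N) [NeZero (N * ℓ)] (Dg0 : Deg N ℓ hℓ h) (z₁ z₂ : XN N) :
    ∃ y : XN (N * q), DivP p (tauX N hℓ h z₁ - Dg.b1 y) ∧ DivP p (tauX N hℓ h z₂ - Dg.b2 y) := by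
  let BA : (PH p (Gamma0 N) × PH p (Gamma0 N)) →ₗ[ZMod p]
      (PH p (Gamma0 N) × PH p (Gamma0 N)) →ₗ[ZMod p] ZMod p :=
    (P.B (Gamma0 N)).compl₁₂ (LinearMap.fst _ _ _) (LinearMap.fst _ _ _) +
      (P.B (Gamma0 N)).compl₁₂ (LinearMap.snd _ _ _) (LinearMap.snd _ _ _)
  have hBA : ∀ x y : PH p (Gamma0 N) × PH p (Gamma0 N), BA x y = P.B (Gamma0 N) x.1 y.1 + P.B (Gamma0 N) x.2 y.2 :=
    fun x y => rfl
  have hAa := P.antisymm (Gamma0 N) (finiteIndex_Gamma0 N) (neg_one_mem_Gamma0 N)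
  have hAn := P.nondeg (Gamma0 N) (finiteIndex_Gamma0 N) (neg_one_mem_Gamma0 N)
  have hCa := P.antisymm (Gamma0 (N * q)) (finiteIndex_Gamma0 (N * q)) (neg_one_mem_Gamma0 (N * q))
  have hCn := P.nondeg (Gamma0 (N * q)) (finiteIndex_Gamma0 (N * q)) (neg_one_mem_Gamma0 (N * q))
  let t0 : PH p (Gamma0 N) →ₗ[ZMod p] PH p (Gamma0 N) :=
    Tbar p N hℓ h + (-((ℓ : ZMod p) + 1)) • LinearMap.id
  have ht0 : ∀ x : PH p (Gamma0 N), t0 x = Tbar p N hℓ h x + (-((ℓ : ZMod p) + 1)) • x :=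
    fun x => rfl
  have hself : ∀ x y : PH p (Gamma0 N), P.B (Gamma0 N) (t0 x) y = P.B (Gamma0 N) x (t0 y) := by
    intro x y
    obtain ⟨x, rfl⟩ := red_surjective p N x
    obtain ⟨y, rfl⟩ := red_surjective p N y
    rw [ht0, ht0, map_add, LinearMap.add_apply, map_add, Tbar_red, Tbar_red, T_selfadj P Dg0,
      map_smul, map_smul, LinearMap.smul_apply]
  obtain ⟨y, hy⟩ := abs_dual BA (P.B (Gamma0 (N * q)))
    (by
      intro y hy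
      have h1 : y.1 = 0 := hAn _ fun x => by simpa [hBA] using hy (x, 0)
      have h2 : y.2 = 0 := hAn _ fun x => by simpa [hBA] using hy (0, x)
      exact Prod.ext h1 h2)
    (by
      intro x y
      rw [hBA, hBA, hAa x.1, hAa x.2]
      ring)
    hCn hCa
    ((bar p Dg.a1.toAddMonoidHom).coprod (bar p Dg.a2.toAddMonoidHom))
    ((bar p Dg.b1.toAddMonoidHom).prod (bar p Dg.b2.toAddMonoidHom))
    (by
      rintro ⟨x₁, x₂⟩ y
      obtain ⟨x₁, rfl⟩ := red_surjective p N x₁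
      obtain ⟨x₂, rfl⟩ := red_surjective p N x₂
      obtain ⟨y, rfl⟩ := red_surjective p (N * q) y
      rw [hBA, LinearMap.coprod_apply, map_add, LinearMap.add_apply, LinearMap.prod_apply]
      show P.B _ (bar p Dg.a1.toAddMonoidHom (red p N x₁)) _ +
        P.B _ (bar p Dg.a2.toAddMonoidHom (red p N x₂)) _ =
        P.B _ _ (bar p Dg.b1.toAddMonoidHom (red p (N * q) y)) +
        P.B _ _ (bar p Dg.b2.toAddMonoidHom (red p (N * q) y))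
      rw [bar_red, bar_red, bar_red, bar_red]
      exact congrArg₂ (· + ·) (adj1 P Dg x₁ y) (adj2 P Dg x₂ y))
    (t0.prodMap t0)
    (by
      rintro ⟨x₁, x₂⟩ ⟨y₁, y₂⟩
      rw [hBA, hBA]
      simp only [LinearMap.prodMap_apply]
      rw [hself, hself])
    (by
      rintro ⟨x₁, x₂⟩ hx
      rw [LinearMap.coprod_apply] at hx
      obtain ⟨h1, h2⟩ := ker_eis Dg hp2 x₁ x₂ hx hℓ h
      rw [LinearMap.prodMap_apply]
      have e1 : t0 x₁ = 0 := by rw [ht0, h1, ← add_smul, add_neg_cancel, zero_smul]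
      have e2 : t0 x₂ = 0 := by rw [ht0, h2, ← add_smul, add_neg_cancel, zero_smul]
      rw [e1, e2]
      rfl)
    (red p N z₁, red p N z₂)
  obtain ⟨y, rfl⟩ := red_surjective p (N * q) y
  rw [LinearMap.prodMap_apply, LinearMap.prod_apply] at hy
  have hy1 : t0 (red p N z₁) = red p N (Dg.b1 y) :=
    (congrArg Prod.fst hy).trans (bar_red p Dg.b1.toAddMonoidHom y)
  have hy2 : t0 (red p N z₂) = red p N (Dg.b2 y) :=
    (congrArg Prod.snd hy).trans (bar_red p Dg.b2.toAddMonoidHom y)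
  refine ⟨y, ?_, ?_⟩
  · rw [← red_eq_zero_iff, map_sub, red_tauX, ← ht0]
    exact sub_eq_zero.2 hy1
  · rw [← red_eq_zero_iff, map_sub, red_tauX, ← ht0]
    exact sub_eq_zero.2 hy2

omit [Fact p.Prime] in
theorem DivP.add {X : Type*} [AddCommGroup X] {x y : X} (hx : DivP p x) (hy : DivP p y) :
    DivP p (x + y) := by
  obtain ⟨a, rfl⟩ := hx
  obtain ⟨b, rfl⟩ := hy
  exact ⟨a + b, (smul_add _ _ _).symm⟩

omit [Fact p.Prime] in
theorem DivP.zsmul {X : Type*} [AddCommGroup X] {x : X} (hx : DivP p x) (n : ℤ) :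
    DivP p (n • x) := by
  obtain ⟨a, rfl⟩ := hx
  exact ⟨n • a, smul_comm _ _ _⟩

omit [Fact p.Prime] in
theorem DivP.map {X Y : Type*} [AddCommGroup X] [AddCommGroup Y] {x : X} (hx : DivP p x)
    (f : X →+ Y) : DivP p (f x) := by
  obtain ⟨a, rfl⟩ := hx
  exact ⟨f a, map_zsmul f _ _⟩

omit [Fact p.Prime] in
theorem DivP.self {X : Type*} [AddCommGroup X] (x : X) : DivP p ((p : ℤ) • x) := ⟨x, rfl⟩

/-- cohomological level raising -/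
theorem coh (hp2 : p ≠ 2) (hq : q.Prime) (hqN : ¬ q ∣ N) (S : ℕ → Prop) (a : ℕ → ℤ)
    (x₀ : XN N) (e : ℤ) (he : e = 1 ∨ e = -1) (hx₀ : ¬ DivP p x₀)
    (hT : ∀ (ℓ : ℕ) (hℓ : ℓ.Prime) (hN : ¬ ℓ ∣ N), S ℓ → DivP p (heckeX N hℓ hN x₀ - a ℓ • x₀))
    (hTq : DivP p (heckeX N hq hqN x₀ - (e * ((q : ℤ) + 1)) • x₀))
    (ℓ₀ : ℕ) (hℓ₀ : ℓ₀.Prime) (hℓ₀N : ¬ ℓ₀ ∣ N * q) (hS : S ℓ₀)
    (hne : ((a ℓ₀ : ℤ) : ZMod p) ≠ (ℓ₀ : ZMod p) + 1) :
    ∃ y : XN (N * q), ¬ DivP p y ∧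
      heckeXU (N * q) hq (Dvd.intro_left N rfl) (heckeXU (N * q) hq (Dvd.intro_left N rfl) y) = y ∧
      ∀ (ℓ : ℕ) (hℓ : ℓ.Prime) (hM : ¬ ℓ ∣ N * q), S ℓ →
        DivP p (heckeX (N * q) hℓ hM y - a ℓ • y) := by
  obtain ⟨P⟩ := nonempty_pairing p hp2
  obtain ⟨Dg⟩ := Hecke.nonempty_deg N q hq hqN
  have hN0 : ¬ ℓ₀ ∣ N := fun hd => hℓ₀N (Dvd.dvd.mul_right hd q)
  have : NeZero (N * ℓ₀) := ⟨Nat.mul_ne_zero (NeZero.ne N) hℓ₀.ne_zero⟩
  obtain ⟨Dg0⟩ := Hecke.nonempty_deg N ℓ₀ hℓ₀ hN0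
  have hee : e * e = 1 := by rcases he with rfl | rfl <;> norm_num
  set c : ℤ := a ℓ₀ - ((ℓ₀ : ℤ) + 1) with hc
  have hcp : IsCoprime c (p : ℤ) := by
    have hpp : Prime (p : ℤ) := Nat.prime_iff_prime_int.1 Fact.out
    rw [isCoprime_comm, hpp.coprime_iff_not_dvd]
    intro hd
    apply hne
    have := (ZMod.intCast_zmod_eq_zero_iff_dvd c p).2 hd
    rw [hc] at this
    push_cast at this
    exact sub_eq_zero.1 this
  -- (b)
  have hb : ¬ DivP p (Dg.a1 x₀ + Dg.a2 ((-e) • x₀)) := by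
    rintro ⟨z, hz⟩
    have h1 := eis_of_ihara Dg hp2 (e : ZMod p)
      (by rcases he with rfl | rfl <;> simp) (red p N x₀) (by
        intro γ
        have := congrArg (fun w : XN (N * q) =>
          (((w : Additive (Gamma0 (N * q)) →+ ℤ) (Additive.ofMul γ) : ℤ) : ZMod p)) hz
        simp only [map_smul, Submodule.coe_add, Submodule.coe_smul, AddMonoidHom.add_apply,
          AddMonoidHom.smul_apply, Dg.a1_apply, Dg.a2_apply, smul_eq_mul] at this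
        push_cast at this
        rw [ZMod.natCast_self, zero_mul] at this
        rw [red_apply, red_apply]
        linear_combination this) hℓ₀ hN0
    have h2 := (red_eq_zero_iff p N _).2 (hT ℓ₀ hℓ₀ hN0 hS)
    rw [sub_eq_add_neg, ← neg_smul, map_add, ← Tbar_red, red_zsmul, h1, ← add_smul] at h2
    have h3 : ((ℓ₀ : ZMod p) + 1 + ((-a ℓ₀ : ℤ) : ZMod p)) ≠ 0 := by
      intro h0
      apply hne
      push_cast at h0
      linear_combination -h0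
    exact hx₀ ((red_eq_zero_iff p N _).1 ((smul_eq_zero.1 h2).resolve_left h3))
  obtain ⟨zq, hzq⟩ := hTq
  obtain ⟨z0, hz0⟩ := hT ℓ₀ hℓ₀ hN0 hS
  obtain ⟨y, n, w, hy0, hy⟩ := abs_lr (XA := XN N × XN N) (XC := XN (N * q)) p
    (Dg.a1.toAddMonoidHom.coprod Dg.a2.toAddMonoidHom)
    (Dg.b1.toAddMonoidHom.prod Dg.b2.toAddMonoidHom)
    ((tauX N hℓ₀ hN0).toAddMonoidHom.prodMap (tauX N hℓ₀ hN0).toAddMonoidHom)
    (tauX (N * q) hℓ₀ hℓ₀N).toAddMonoidHom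
    (by
      intro y
      refine Prod.ext ?_ ?_
      · show Dg.b1 (tauX (N * q) hℓ₀ hℓ₀N y) = tauX N hℓ₀ hN0 (Dg.b1 y)
        rw [tauX_apply, tauX_apply, map_sub, map_smul, Dg.b1_T]
      · show Dg.b2 (tauX (N * q) hℓ₀ hℓ₀N y) = tauX N hℓ₀ hN0 (Dg.b2 y)
        rw [tauX_apply, tauX_apply, map_sub, map_smul, Dg.b2_T])
    (by
      rintro ⟨x₁, x₂⟩
      show tauX (N * q) hℓ₀ hℓ₀N (Dg.a1 x₁ + Dg.a2 x₂) =
        Dg.a1 (tauX N hℓ₀ hN0 x₁) + Dg.a2 (tauX N hℓ₀ hN0 x₂)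
      rw [map_add, tauX_apply, tauX_apply, tauX_apply, tauX_apply, map_sub, map_sub, map_smul,
        map_smul, Dg.a1_T _ hℓ₀ hN0 hℓ₀N, Dg.a2_T _ hℓ₀ hN0 hℓ₀N])
    (by
      rintro ⟨z₁, z₂⟩
      obtain ⟨y, ⟨w₁, h1⟩, ⟨w₂, h2⟩⟩ := dual_ihara hp2 P Dg hℓ₀ hN0 Dg0 z₁ z₂
      refine ⟨y, (w₁, w₂), Prod.ext ?_ ?_⟩
      · show tauX N hℓ₀ hN0 z₁ = Dg.b1 y + (p : ℤ) • w₁
        rw [← h1]; abel
      · show tauX N hℓ₀ hN0 z₂ = Dg.b2 y + (p : ℤ) • w₂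
        rw [← h2]; abel)
    (x₀, (-e) • x₀)
    (by
      refine ⟨((-e) • zq, zq), Prod.ext ?_ ?_⟩
      · show Dg.b1 (Dg.a1 x₀ + Dg.a2 ((-e) • x₀)) = (p : ℤ) • ((-e) • zq)
        rw [map_add, Dg.b1a1, Dg.b1a2, map_smul, smul_comm, ← hzq, smul_sub, smul_smul]
        have : -e * (e * ((q : ℤ) + 1)) = -((q : ℤ) + 1) := by linear_combination (-((q : ℤ) + 1)) * hee
        rw [this, neg_smul, neg_smul]
        abel
      · show Dg.b2 (Dg.a1 x₀ + Dg.a2 ((-e) • x₀)) = (p : ℤ) • zq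
        rw [map_add, Dg.b2a1, Dg.b2a2, ← hzq, smul_smul, sub_eq_add_neg, ← neg_smul]
        congr 2
        ring)
    c
    (by
      refine ⟨(z0, (-e) • z0), Prod.ext ?_ ?_⟩
      · show tauX N hℓ₀ hN0 x₀ = c • x₀ + (p : ℤ) • z0
        rw [← hz0, tauX_apply, hc, sub_smul]
        abel
      · show tauX N hℓ₀ hN0 ((-e) • x₀) = c • ((-e) • x₀) + (p : ℤ) • ((-e) • z0)
        rw [map_smul, smul_comm c, smul_comm (p : ℤ), ← smul_add, ← hz0, tauX_apply, hc, sub_smul]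
        congr 1
        abel)
  have hal : (Dg.a1.toAddMonoidHom.coprod Dg.a2.toAddMonoidHom) (x₀, (-e) • x₀) =
      Dg.a1 x₀ + Dg.a2 ((-e) • x₀) := rfl
  rw [hal] at hy
  have hb1 : Dg.b1 y = 0 := congrArg Prod.fst hy0
  have hb2 : Dg.b2 y = 0 := congrArg Prod.snd hy0
  refine ⟨y, ?_, Dg.uq y hb1 hb2, ?_⟩
  · intro hd
    apply hb
    obtain ⟨u, v, huv⟩ := (hcp.pow_left (m := n))
    have h1 : DivP p (c ^ n • (Dg.a1 x₀ + Dg.a2 ((-e) • x₀))) := by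
      have : c ^ n • (Dg.a1 x₀ + Dg.a2 ((-e) • x₀)) = y + (-1 : ℤ) • ((p : ℤ) • w) := by
        rw [hy]; simp
      rw [this]
      exact hd.add ((DivP.self w).zsmul _)
    have h2 : Dg.a1 x₀ + Dg.a2 ((-e) • x₀) =
        u • (c ^ n • (Dg.a1 x₀ + Dg.a2 ((-e) • x₀))) +
          v • ((p : ℤ) • (Dg.a1 x₀ + Dg.a2 ((-e) • x₀))) := by
      rw [smul_smul, smul_smul, ← add_smul, huv, one_smul]
    rw [h2]
    exact (h1.zsmul u).add ((DivP.self _).zsmul v)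
  · intro ℓ hℓ hM hSℓ
    have hN' : ¬ ℓ ∣ N := fun hd => hM (Dvd.dvd.mul_right hd q)
    obtain ⟨z, hz⟩ := hT ℓ hℓ hN' hSℓ
    have h1 : heckeX (N * q) hℓ hM (Dg.a1 x₀ + Dg.a2 ((-e) • x₀)) -
        a ℓ • (Dg.a1 x₀ + Dg.a2 ((-e) • x₀)) = (p : ℤ) • (Dg.a1 z + Dg.a2 ((-e) • z)) := by
      rw [map_add, ← Dg.a1_T _ hℓ hN' hM, ← Dg.a2_T _ hℓ hN' hM, map_smul (heckeX N hℓ hN')]
      have : heckeX N hℓ hN' x₀ = a ℓ • x₀ + (p : ℤ) • z := by rw [← hz]; abel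
      rw [this]
      simp only [map_add, map_smul, smul_add]
      rw [smul_comm (-e) (a ℓ), smul_comm (-e) (p : ℤ)]
      abel
    have h2 : heckeX (N * q) hℓ hM y - a ℓ • y =
        c ^ n • (heckeX (N * q) hℓ hM (Dg.a1 x₀ + Dg.a2 ((-e) • x₀)) -
          a ℓ • (Dg.a1 x₀ + Dg.a2 ((-e) • x₀))) +
        (p : ℤ) • (heckeX (N * q) hℓ hM w - a ℓ • w) := by
      rw [hy]
      simp only [map_add, map_smul]
      module
    rw [h2, h1]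
    exact ((DivP.self _).zsmul _).add (DivP.self _)

end Fermat.Agent.S41
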