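import Fermat.Agent.S29.HeckeX
import Fermat.Agent.S16.LLift

/-!
# S41 : definitions   (owner helper28; blueprint = briefing 'S41-BLUEPRINT')

* `HD Γ' Γ M γ`, `IsTr Γ' Γ M c c'` : two-level Hecke (transfer) data.
* `PH p Γ` : homomorphisms `Γ → ℤ/p` killing parabolic and torsion elements.
* `red p M : XN M →+ PH p (Gamma0 M)`.
* `heckeXU M hℓ h` : the operator `U_ℓ` on `XN M`, `ℓ ∣ M`.
* `DivP p x` : `x ∈ p X`.
-/

set_option autoImplicit false

open UpperHalfPlane ModularForm ModularFormClass ModularCurve CongruenceSubgroup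
open ModularCurve.Period Fermat.Agent.S16.Lower Fermat.Agent.S29 Fermat.Agent.S29.HeckeXAux
open scoped MatrixGroups

noncomputable section

namespace Fermat.Agent.S41

/-- integral `2 × 2` matrices -/
abbrev M2 : Type := Matrix (Fin 2) (Fin 2) ℤ

/-- two-level Hecke data: `M i * γ = δ i * M (σ i)`, `γ ∈ Γ`, `δ i ∈ Γ'` -/
structure HD (Γ' Γ : Subgroup SL(2, ℤ)) {ι : Type} (M : ι → M2) (γ : Γ) where
  σ : Equiv.Perm ι
  δ : ι → Γ'
  rel : ∀ i, M i * ((γ : SL(2, ℤ)) : M2) = ((δ i : SL(2, ℤ)) : M2) * M (σ i)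

/-- `c'` is the transfer of `c` along the family `M` -/
def IsTr (Γ' Γ : Subgroup SL(2, ℤ)) {ι : Type} [Fintype ι] (M : ι → M2) {R : Type} [AddCommGroup R]
    (c : Additive Γ' →+ R) (c' : Additive Γ →+ R) : Prop :=
  ∀ (γ : Γ) (D : HD Γ' Γ M γ), c' (Additive.ofMul γ) = ∑ i, c (Additive.ofMul (D.δ i))

/-- conversion with the one-level data of S16 -/
def HD.ofHData {N : ℕ} {ι : Type} {M : ι → M2} {γ : Gamma0 N} (D : HData N M γ) :
    HD (Gamma0 N) (Gamma0 N) M γ := ⟨D.σ, D.δ, D.rel⟩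

def HD.toHData {N : ℕ} {ι : Type} {M : ι → M2} {γ : Gamma0 N} (D : HD (Gamma0 N) (Gamma0 N) M γ) :
    HData N M γ := ⟨D.σ, D.δ, D.rel⟩

theorem isTr_iff_isTransfer {N : ℕ} {ι : Type} [Fintype ι] (M : ι → M2)
    (c c' : Additive (Gamma0 N) →+ ℤ) :
    IsTr (Gamma0 N) (Gamma0 N) M c c' ↔ IsTransfer N M c c' :=
  ⟨fun h γ D => h γ (HD.ofHData D), fun h γ D => h γ D.toHData⟩

/-- homomorphisms `Γ → ℤ/p` killing the parabolic and the torsion elements -/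
def PH (p : ℕ) (Γ : Subgroup SL(2, ℤ)) : Submodule (ZMod p) (Additive Γ →+ ZMod p) where
  carrier := {φ | ∀ γ : Γ, (((γ : SL(2, ℤ)) : M2).trace ^ 2 = 4 ∨ γ ^ 12 = 1) →
    φ (Additive.ofMul γ) = 0}
  zero_mem' := fun _ _ => rfl
  add_mem' := by
    intro φ ψ hφ hψ γ hγ
    show φ (Additive.ofMul γ) + ψ (Additive.ofMul γ) = 0
    rw [hφ γ hγ, hψ γ hγ, add_zero]
  smul_mem' := by
    intro c φ hφ γ hγ
    show c • φ (Additive.ofMul γ) = 0
    rw [hφ γ hγ, smul_zero]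

theorem mem_PH {p : ℕ} {Γ : Subgroup SL(2, ℤ)} {φ : Additive Γ →+ ZMod p} :
    φ ∈ PH p Γ ↔ ∀ γ : Γ, (((γ : SL(2, ℤ)) : M2).trace ^ 2 = 4 ∨ γ ^ 12 = 1) →
      φ (Additive.ofMul γ) = 0 := Iff.rfl

/-- reduction mod `p` of a homomorphism -/
def redHom (p : ℕ) {Γ : Subgroup SL(2, ℤ)} (c : Additive Γ →+ ℤ) : Additive Γ →+ ZMod p :=
  (Int.castAddHom (ZMod p)).comp c

@[simp] theorem redHom_apply (p : ℕ) {Γ : Subgroup SL(2, ℤ)} (c : Additive Γ →+ ℤ)
    (γ : Additive Γ) : redHom p c γ = ((c γ : ℤ) : ZMod p) := rfl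

theorem redHom_mem (p M : ℕ) (c : XN M) :
    redHom p (c : Additive (Gamma0 M) →+ ℤ) ∈ PH p (Gamma0 M) := by
  intro γ hγ
  rw [redHom_apply]
  rcases hγ with hγ | hγ
  · rw [c.2 γ hγ, Int.cast_zero]
  · have h1 : (12 : ℕ) • (c : Additive (Gamma0 M) →+ ℤ) (Additive.ofMul γ) = 0 := by
      rw [← map_nsmul, ← ofMul_pow, hγ, ofMul_one, map_zero]
    have h2 : (c : Additive (Gamma0 M) →+ ℤ) (Additive.ofMul γ) = 0 := by
      simpa using h1
    rw [h2, Int.cast_zero]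

/-- reduction mod `p` : `XN M → PH p (Gamma0 M)` -/
def red (p M : ℕ) : XN M →+ PH p (Gamma0 M) where
  toFun c := ⟨redHom p (c : Additive (Gamma0 M) →+ ℤ), redHom_mem p M c⟩
  map_zero' := by
    apply Subtype.ext
    ext γ
    simp
  map_add' c c' := by
    apply Subtype.ext
    ext γ
    simp

@[simp] theorem red_apply (p M : ℕ) (c : XN M) (γ : Additive (Gamma0 M)) :
    (red p M c : Additive (Gamma0 M) →+ ZMod p) γ =
      (((c : Additive (Gamma0 M) →+ ℤ) γ : ℤ) : ZMod p) := rfl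

/-- divisibility by `p` in an abelian group -/
def DivP (p : ℕ) {X : Type*} [AddCommGroup X] (x : X) : Prop := ∃ z : X, x = (p : ℤ) • z

/-! ### the operator `U_ℓ` on the lattice -/

theorem cast_sum_eq_U {N ℓ : ℕ} [NeZero N] (hℓ : ℓ.Prime) (hN : ℓ ∣ N)
    (c : Additive (Gamma0 N) →+ ℤ) (f g : CuspForm (Gamma0 N) 2)
    (h : periodHomPair N (f, g) = castC N c) (γ : Gamma0 N) (D : HData N (matUF ℓ) γ) :
    ((∑ i, c (Additive.ofMul (D.δ i)) : ℤ) : ℂ) =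
      periodHomPair N (CuspForm.heckeULin 2 hN f, CuspForm.heckeULin 2 hN g)
        (Additive.ofMul γ) := by
  rw [periodHomPair_heckeULin hℓ hN f g γ D, h]
  push_cast
  rfl

/-- a choice of Hecke data -/
def hdU {N ℓ : ℕ} (hℓ : ℓ.Prime) (hN : ℓ ∣ N) (γ : Gamma0 N) : HData N (matUF ℓ) γ :=
  (nonempty_HData_U hℓ hN γ).some

theorem exists_heckeXU (N : ℕ) [NeZero N] {ℓ : ℕ} (hℓ : ℓ.Prime) (hN : ℓ ∣ N) :
    ∃ T : Module.End ℤ (XN N), ∀ c : XN N, IsTransfer N (matUF ℓ) (c : Additive (Gamma0 N) →+ ℤ)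
      (T c : Additive (Gamma0 N) →+ ℤ) := by
  classical
  let F : (Additive (Gamma0 N) →+ ℤ) → Additive (Gamma0 N) → ℤ := fun c γ =>
    ∑ i, c (Additive.ofMul ((hdU hℓ hN (Additive.toMul γ)).δ i))
  have hF : ∀ c : XN N, ∃ f g : CuspForm (Gamma0 N) 2,
      periodHomPair N (f, g) = castC N (c : Additive (Gamma0 N) →+ ℤ) ∧
      ∀ γ : Additive (Gamma0 N), ((F c γ : ℤ) : ℂ) =
        periodHomPair N (CuspForm.heckeULin 2 hN f, CuspForm.heckeULin 2 hN g) γ := by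
    intro c
    obtain ⟨f, g, h⟩ := exists_pair (castC_mem c.2)
    exact ⟨f, g, h, fun γ => cast_sum_eq_U hℓ hN c f g h (Additive.toMul γ) _⟩
  have hadd : ∀ (c : XN N) (γ γ' : Additive (Gamma0 N)), F c (γ + γ') = F c γ + F c γ' := by
    intro c γ γ'
    obtain ⟨f, g, -, h⟩ := hF c
    have : ((F c (γ + γ') : ℤ) : ℂ) = ((F c γ + F c γ' : ℤ) : ℂ) := by
      rw [Int.cast_add, h, h, h, map_add]
    exact_mod_cast this
  let G : XN N → (Additive (Gamma0 N) →+ ℤ) := fun c => AddMonoidHom.mk' (F c) (hadd c)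
  have hG : ∀ c : XN N, G c ∈ XN N := by
    intro c γ hγ
    obtain ⟨f, g, -, h⟩ := hF c
    have h1 := periodHomPair_mem N
      (CuspForm.heckeULin 2 hN f, CuspForm.heckeULin 2 hN g) γ hγ
    have : ((F c (Additive.ofMul γ) : ℤ) : ℂ) = 0 := by rw [h, h1]
    exact_mod_cast this
  refine ⟨{ toFun := fun c => ⟨G c, hG c⟩
            map_add' := ?_
            map_smul' := ?_ }, ?_⟩
  · intro c c'
    apply Subtype.ext
    ext γ
    show F _ γ = F _ γ + F _ γ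
    simp only [F, Submodule.coe_add, AddMonoidHom.add_apply, Finset.sum_add_distrib]
  · intro n c
    apply Subtype.ext
    ext γ
    show F _ γ = n • F _ γ
    simp only [F, Submodule.coe_smul, AddMonoidHom.coe_smul, Pi.smul_apply, Finset.smul_sum]
  · intro c γ D
    obtain ⟨f, g, h0, h⟩ := hF c
    have : ((F c (Additive.ofMul γ) : ℤ) : ℂ) =
        ((∑ i, (c : Additive (Gamma0 N) →+ ℤ) (Additive.ofMul (D.δ i)) : ℤ) : ℂ) := by
      rw [h, cast_sum_eq_U hℓ hN c f g h0 γ D]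
    exact_mod_cast this

/-- the Hecke operator `U_ℓ` on the lattice -/
def heckeXU (N : ℕ) [NeZero N] {ℓ : ℕ} (hℓ : ℓ.Prime) (hN : ℓ ∣ N) : Module.End ℤ (XN N) :=
  (exists_heckeXU N hℓ hN).choose

theorem isTransfer_heckeXU (N : ℕ) [NeZero N] {ℓ : ℕ} (hℓ : ℓ.Prime) (hN : ℓ ∣ N) (c : XN N) :
    IsTransfer N (matUF ℓ) (c : Additive (Gamma0 N) →+ ℤ)
      (heckeXU N hℓ hN c : Additive (Gamma0 N) →+ ℤ) :=
  (exists_heckeXU N hℓ hN).choose_spec c

theorem castC_heckeXU {N : ℕ} [NeZero N] {ℓ : ℕ} (hℓ : ℓ.Prime) (hN : ℓ ∣ N) (c : XN N)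
    (f g : CuspForm (Gamma0 N) 2)
    (h : periodHomPair N (f, g) = castC N (c : Additive (Gamma0 N) →+ ℤ)) :
    periodHomPair N (CuspForm.heckeULin 2 hN f, CuspForm.heckeULin 2 hN g) =
      castC N (heckeXU N hℓ hN c : Additive (Gamma0 N) →+ ℤ) := by
  refine AddMonoidHom.ext fun γ => ?_
  have h1 := isTransfer_heckeXU N hℓ hN c (Additive.toMul γ) (hdU hℓ hN _)
  have h2 := cast_sum_eq_U hℓ hN c f g h (Additive.toMul γ) (hdU hℓ hN _)
  rw [castC_apply]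
  rw [← h1] at h2
  exact h2.symm

end Fermat.Agent.S41
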