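import Fermat.Statements.S41
import Fermat.Agent.S41.Defs
import Fermat.Agent.S41.Eis.Two
import Fermat.Agent.S41.Top.In
import Fermat.Agent.S41.Top.Out

/-!
# S41 / TOP + EIS2 : interface     (blueprint sections 5, 6)
-/

set_option autoImplicit false

open WeierstrassCurve WeierstrassCurve.Affine WeierstrassCurve.Affine.Point
open CongruenceSubgroup ModularCurve.Period
open Fermat.Agent.S16.Lower Fermat.Agent.S29
open scoped MatrixGroups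

noncomputable section

namespace Fermat.Agent.S41

/-- [S41/EIS2] an irreducible `E[p]` is not Eisenstein -/
theorem eis2 (E : WeierstrassCurve ℚ) [E.IsElliptic] {W : WeierstrassCurve ℤ}
    (hW : W.IsIntegralModelOf E) {p : ℕ} (hp : p.Prime) (hp2 : p ≠ 2)
    (hirr : GaloisRepIsIrreducible (K := AlgebraicClosure ℚ) ℚ E p) (B : ℕ) (hB : B ≠ 0) :
    ∃ ℓ : ℕ, ℓ.Prime ∧ W.IsGoodPrimeFor ℓ ∧ ¬ ℓ ∣ B ∧ ℓ ≠ p ∧
      ((W.apOfModel ℓ : ℤ) : ZMod p) ≠ (ℓ : ZMod p) + 1 := by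
  obtain ⟨ℓ, h1, h2, h3, h4, h5⟩ := Eis.exists_prime_ap_ne E hW hp hp2 hirr B hB
  refine ⟨ℓ, h1, h2, h3, h4, fun h => h5 ?_⟩
  rw [← ZMod.intCast_zmod_eq_zero_iff_dvd]
  push_cast
  rw [h]
  ring

/-- [S41/TOP-IN] the eigenform gives a primitive class in the lattice which is an eigenvector mod `p` -/
theorem top_in {W : WeierstrassCurve ℤ} {p N q' : ℕ} [NeZero N] (hp : p.Prime) (hq' : q'.Prime)
    (hq'N : ¬ q' ∣ N)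
    (f : CuspForm (CongruenceSubgroup.Gamma0 N) 2) (𝔪 : Ideal (integralClosure ℤ ℂ))
    (hf : f.IsNormalizedEigenform) (hmax : 𝔪.IsMaximal) (hpm : (p : integralClosure ℤ ℂ) ∈ 𝔪)
    (hcong : ∀ ℓ : ℕ, ℓ.Prime → W.IsGoodPrimeFor ℓ → ¬ ℓ ∣ N → ℓ ≠ p →
      ∃ a : integralClosure ℤ ℂ, (a : ℂ) = ModularFormClass.qCoeff f ℓ ∧
        a - ((W.apOfModel ℓ : ℤ) : integralClosure ℤ ℂ) ∈ 𝔪)
    (hLR : ∃ a : integralClosure ℤ ℂ, (a : ℂ) = ModularFormClass.qCoeff f q' ∧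
      a ^ 2 - ((q' : integralClosure ℤ ℂ) + 1) ^ 2 ∈ 𝔪) :
    ∃ (x₀ : XN N) (e : ℤ), (e = 1 ∨ e = -1) ∧ ¬ DivP p x₀ ∧
      (∀ (ℓ : ℕ) (hℓ : ℓ.Prime) (hN : ¬ ℓ ∣ N), W.IsGoodPrimeFor ℓ → ℓ ≠ p →
        DivP p (heckeX N hℓ hN x₀ - (W.apOfModel ℓ : ℤ) • x₀)) ∧
      DivP p (heckeX N hq' hq'N x₀ - (e * ((q' : ℤ) + 1)) • x₀) := by
  classical
  obtain ⟨α, hα, hα2⟩ := hLR
  have hprime : 𝔪.IsPrime := hmax.isPrime
  obtain ⟨e, he, hαe⟩ : ∃ e : ℤ, (e = 1 ∨ e = -1) ∧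
      α - ((e * ((q' : ℤ) + 1) : ℤ) : integralClosure ℤ ℂ) ∈ 𝔪 := by
    have h1 : (α - ((q' : integralClosure ℤ ℂ) + 1)) * (α + ((q' : integralClosure ℤ ℂ) + 1)) ∈ 𝔪 := by
      have : (α - ((q' : integralClosure ℤ ℂ) + 1)) * (α + ((q' : integralClosure ℤ ℂ) + 1)) =
          α ^ 2 - ((q' : integralClosure ℤ ℂ) + 1) ^ 2 := by ring
      rw [this]
      exact hα2
    rcases hprime.mem_or_mem h1 with h2 | h2
    · refine ⟨1, Or.inl rfl, ?_⟩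
      have : α - (((1 : ℤ) * ((q' : ℤ) + 1) : ℤ) : integralClosure ℤ ℂ) =
          α - ((q' : integralClosure ℤ ℂ) + 1) := by push_cast; ring
      rw [this]
      exact h2
    · refine ⟨-1, Or.inr rfl, ?_⟩
      have : α - (((-1 : ℤ) * ((q' : ℤ) + 1) : ℤ) : integralClosure ℤ ℂ) =
          α + ((q' : integralClosure ℤ ℂ) + 1) := by push_cast; ring
      rw [this]
      exact h2
  set a : ℕ → ℤ := fun ℓ => if ℓ = q' then e * ((q' : ℤ) + 1) else W.apOfModel ℓ with ha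
  set S : Set ℕ := {ℓ | ℓ = q' ∨ (ℓ.Prime ∧ W.IsGoodPrimeFor ℓ ∧ ¬ ℓ ∣ N ∧ ℓ ≠ p)} with hS
  obtain ⟨x₀, hx₀, hT⟩ := Top.top_in hp f hf 𝔪 hmax hpm S a (by
    intro ℓ hℓ
    by_cases hq : ℓ = q'
    · subst hq
      refine ⟨α, hα, ?_⟩
      simp only [ha, if_true]
      exact hαe
    · rcases hℓ with h | ⟨h1, h2, h3, h4⟩
      · exact absurd h hq
      · simp only [ha, if_neg hq]
        exact hcong ℓ h1 h2 h3 h4)
  have hTq : DivP p (heckeX N hq' hq'N x₀ - (e * ((q' : ℤ) + 1)) • x₀) := by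
    have := hT q' hq' hq'N (Or.inl rfl)
    simpa only [ha, if_true] using this
  refine ⟨x₀, e, he, hx₀, ?_, hTq⟩
  intro ℓ hℓ hN hgood hℓp
  by_cases hq : ℓ = q'
  · subst hq
    obtain ⟨β, hβ, hβ2⟩ := hcong ℓ hℓ hgood hN hℓp
    have hαβ : α = β := Subtype.ext (hα.trans hβ.symm)
    have h1 : ((W.apOfModel ℓ - e * ((ℓ : ℤ) + 1) : ℤ) : integralClosure ℤ ℂ) ∈ 𝔪 := by
      have : ((W.apOfModel ℓ - e * ((ℓ : ℤ) + 1) : ℤ) : integralClosure ℤ ℂ) =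
          (α - ((e * ((ℓ : ℤ) + 1) : ℤ) : integralClosure ℤ ℂ)) -
            (β - ((W.apOfModel ℓ : ℤ) : integralClosure ℤ ℂ)) := by
        rw [hαβ]; push_cast; ring
      rw [this]
      exact 𝔪.sub_mem hαe hβ2
    obtain ⟨w, hw⟩ := (Top.intCast_mem_iff hp hmax hpm _).1 h1
    obtain ⟨z, hz⟩ := hTq
    refine ⟨z - w • x₀, ?_⟩
    have h2 : (W.apOfModel ℓ : ℤ) = e * ((ℓ : ℤ) + 1) + (p : ℤ) * w := by linarith
    rw [h2, add_smul, ← sub_sub, hz, smul_sub, mul_smul]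
  · have := hT ℓ hℓ hN (Or.inr ⟨hℓ, hgood, hN, hℓp⟩)
    simpa only [ha, if_neg hq] using this

/-- [S41/TOP-OUT] a primitive class in `ker (U_q² - 1)` which is an eigenvector mod `p` lifts to an eigenform -/
theorem top_out {W : WeierstrassCurve ℤ} {p M q' : ℕ} [NeZero M] (hp : p.Prime) (hq' : q'.Prime)
    (hq'M : q' ∣ M) (y : XN M) (hy : ¬ DivP p y)
    (hU : heckeXU M hq' hq'M (heckeXU M hq' hq'M y) = y)
    (hT : ∀ (ℓ : ℕ) (hℓ : ℓ.Prime) (hM : ¬ ℓ ∣ M), W.IsGoodPrimeFor ℓ → ℓ ≠ p →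
      DivP p (heckeX M hℓ hM y - (W.apOfModel ℓ : ℤ) • y)) :
    ∃ (g : CuspForm (CongruenceSubgroup.Gamma0 M) 2) (𝔪' : Ideal (integralClosure ℤ ℂ)),
      g.IsNormalizedEigenform ∧ 𝔪'.IsMaximal ∧ (p : integralClosure ℤ ℂ) ∈ 𝔪' ∧
      (∀ ℓ : ℕ, ℓ.Prime → W.IsGoodPrimeFor ℓ → ¬ ℓ ∣ M → ℓ ≠ p →
        ∃ a : integralClosure ℤ ℂ, (a : ℂ) = ModularFormClass.qCoeff g ℓ ∧
          a - ((W.apOfModel ℓ : ℤ) : integralClosure ℤ ℂ) ∈ 𝔪') ∧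
      g.IsNewAt q' := by
  obtain ⟨𝔪, hmax, hpm⟩ := FLTPrelim.exists_maximalIdeal_natCast_prime_mem hp
  obtain ⟨g, hg, hcong, hnew⟩ := Top.top_out hp hq' hq'M 𝔪 hmax hpm y hy hU
    {ℓ | W.IsGoodPrimeFor ℓ ∧ ℓ ≠ p} (fun ℓ => W.apOfModel ℓ)
    (fun ℓ hℓ hN hS => hT ℓ hℓ hN hS.1 hS.2)
  exact ⟨g, 𝔪, hg, hmax, hpm, fun ℓ hℓ hgood hM hℓp => hcong ℓ hℓ hM ⟨hgood, hℓp⟩, hnew⟩

end Fermat.Agent.S41
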