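import Fermat.Agent.S16.LDefs

/-!
# S41 / EIS1 : a character of `Gamma0 N` depending only on `d mod N` is an eigenvector of `T_ℓ`
with eigenvalue `ℓ + 1`.
-/

set_option autoImplicit false

open CongruenceSubgroup
open Fermat.Agent.S16.Lower
open scoped MatrixGroups

noncomputable section

namespace Fermat.Agent.S41

/-- lower right entry mod `N`. -/
def eis1D (N : ℕ) (g : Gamma0 N) : ZMod N := (((g : SL(2, ℤ)) 1 1 : ℤ) : ZMod N)

theorem eis1D_c (N : ℕ) (g : Gamma0 N) : (((g : SL(2, ℤ)) 1 0 : ℤ) : ZMod N) = 0 :=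
  Gamma0_mem.1 g.2

theorem eis1D_mul (N : ℕ) (g h : Gamma0 N) : eis1D N (g * h) = eis1D N g * eis1D N h := by
  unfold eis1D
  have h1 : ((g * h : Gamma0 N) : SL(2, ℤ)) 1 1 =
      (g : SL(2, ℤ)) 1 0 * (h : SL(2, ℤ)) 0 1 + (g : SL(2, ℤ)) 1 1 * (h : SL(2, ℤ)) 1 1 := by
    simp [Matrix.SpecialLinearGroup.coe_mul, Matrix.mul_apply, Fin.sum_univ_two]
  rw [h1]
  push_cast
  rw [eis1D_c]
  ring

theorem eis1D_one (N : ℕ) : eis1D N 1 = 1 := by
  simp [eis1D]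

theorem eis1D_inv (N : ℕ) (g : Gamma0 N) : eis1D N g * eis1D N g⁻¹ = 1 := by
  rw [← eis1D_mul, mul_inv_cancel, eis1D_one]

theorem eis1_congr {p N : ℕ} (z : Additive (Gamma0 N) →+ ZMod p)
    (hz : ∀ γ : Gamma0 N, (((γ : SL(2, ℤ)) 1 1 : ℤ) : ZMod N) = 1 → z (Additive.ofMul γ) = 0)
    (g h : Gamma0 N) (hgh : eis1D N g = eis1D N h) :
    z (Additive.ofMul g) = z (Additive.ofMul h) := by
  have h1 : z (Additive.ofMul (g * h⁻¹)) = 0 := by
    apply hz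
    change eis1D N (g * h⁻¹) = 1
    rw [eis1D_mul, hgh, eis1D_inv]
  have h2 : z (Additive.ofMul (g * h⁻¹)) = z (Additive.ofMul g) - z (Additive.ofMul h) := by
    rw [ofMul_mul, map_add, ofMul_inv, map_neg, sub_eq_add_neg]
  rw [h2] at h1
  exact sub_eq_zero.1 h1

theorem eis1_exists (N ℓ : ℕ) (hℓ : ℓ.Prime) (hℓN : ¬ ℓ ∣ N) :
    ∃ g : Gamma0 N, eis1D N g = (ℓ : ZMod N) := by
  have hcop : IsCoprime (ℓ : ℤ) (N : ℤ) := by
    rw [Nat.isCoprime_iff_coprime]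
    exact (Nat.Prime.coprime_iff_not_dvd hℓ).2 hℓN
  obtain ⟨u, v, huv⟩ := hcop
  let g : SL(2, ℤ) := ⟨!![u, -v; (N : ℤ), (ℓ : ℤ)], by
    rw [Matrix.det_fin_two_of]; linarith⟩
  refine ⟨⟨g, ?_⟩, ?_⟩
  · rw [Gamma0_mem]
    simp [g]
  · simp [eis1D, g]

/-- lower right entry of `matT ℓ i`. -/
def eis1M (ℓ : ℕ) : Option (Fin ℓ) → ℤ
  | none => 1
  | some _ => (ℓ : ℤ)

theorem eis1_matT_row (ℓ : ℕ) (i : Option (Fin ℓ)) :
    matT ℓ i 1 0 = 0 ∧ matT ℓ i 1 1 = eis1M ℓ i := by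
  cases i <;> simp [matT, matD, matU, eis1M]

theorem eis1_aux (p N ℓ : ℕ) (_hN : 0 < N) (hℓ : ℓ.Prime) (hℓN : ¬ ℓ ∣ N)
    (z : Additive (Gamma0 N) →+ ZMod p)
    (hz : ∀ γ : Gamma0 N, (((γ : SL(2, ℤ)) 1 1 : ℤ) : ZMod N) = 1 → z (Additive.ofMul γ) = 0)
    (γ : Gamma0 N) (D : HData N (matT ℓ) γ) :
    ∑ i, z (Additive.ofMul (D.δ i)) = ((ℓ : ZMod p) + 1) * z (Additive.ofMul γ) := by
  obtain ⟨gl, hgl⟩ := eis1_exists N ℓ hℓ hℓN
  let G : Option (Fin ℓ) → Gamma0 N := fun i => match i with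
    | none => 1
    | some _ => gl
  have hG : ∀ i, eis1D N (G i) = ((eis1M ℓ i : ℤ) : ZMod N) := by
    intro i
    cases i with
    | none => simp [G, eis1M, eis1D_one]
    | some j => simp [G, eis1M, hgl]
  have hrel : ∀ i, eis1D N (D.δ i * G (D.σ i)) = eis1D N (G i * γ) := by
    intro i
    rw [eis1D_mul, eis1D_mul, hG, hG]
    have h := congrFun (congrFun (D.rel i) 1) 1
    rw [Matrix.mul_apply, Matrix.mul_apply, Fin.sum_univ_two, Fin.sum_univ_two,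
      (eis1_matT_row ℓ i).1, (eis1_matT_row ℓ i).2, (eis1_matT_row ℓ (D.σ i)).2] at h
    have h' := congrArg (fun x : ℤ => (x : ZMod N)) h
    simp only [Int.cast_add, Int.cast_mul] at h'
    have hc : ((((D.δ i : Gamma0 N) : SL(2, ℤ)) : Matrix (Fin 2) (Fin 2) ℤ) 1 0 : ZMod N) = 0 :=
      eis1D_c N (D.δ i)
    rw [hc] at h'
    simp only [Int.cast_zero, zero_mul, zero_add] at h'
    exact h'.symm
  have hkey : ∀ i, z (Additive.ofMul (D.δ i)) =
      z (Additive.ofMul γ) + z (Additive.ofMul (G i)) - z (Additive.ofMul (G (D.σ i))) := by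
    intro i
    have h := eis1_congr z hz _ _ (hrel i)
    rw [ofMul_mul, map_add, ofMul_mul, map_add] at h
    linear_combination h
  rw [Finset.sum_congr rfl (fun i _ => hkey i), Finset.sum_sub_distrib, Finset.sum_add_distrib,
    Equiv.sum_comp D.σ (fun i => z (Additive.ofMul (G i)))]
  simp [Finset.card_univ, Fintype.card_option]

end Fermat.Agent.S41
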