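import Fermat.Agent.S41.IfHecke
import Fermat.Agent.S41.EisOne
import Fermat.Agent.S41.IH.PHForm

/-!
# S41 / IHARA + EIS1 : interface     (IH/* = helper29 + helper24; briefing 'S41-IHARA (lead)')
-/

set_option autoImplicit false

open CongruenceSubgroup ModularGroup ModularCurve.Period
open Fermat.Agent.S16.Lower Fermat.Agent.S29
open scoped MatrixGroups

noncomputable section

namespace Fermat.Agent.S41

/-- [S41/IHARA] wiring of `IH/Main.lean` -/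
theorem ihara (p N q : ℕ) [Fact p.Prime] (hp2 : p ≠ 2) (hN : 0 < N) (hq : q.Prime) (hqN : ¬ q ∣ N)
    (e : ZMod p) (he : e = 1 ∨ e = -1) (V : Set (Additive (Gamma0 N) →+ ZMod p))
    (hV1 : ∀ x ∈ V, x ∈ PH p (Gamma0 N))
    (hV2 : ∀ x ∈ V, ∀ γ : Gamma0 (N * q),
      x (Additive.ofMul (cI N q γ)) = e * x (Additive.ofMul (cD N q γ)))
    (hV3 : ∀ x ∈ V, ∀ ℓ : ℕ, ℓ.Prime → ¬ ℓ ∣ N * q →
      ∃ x' ∈ V, IsTr (Gamma0 N) (Gamma0 N) (matT ℓ) x x') :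
    ∀ x ∈ V, ∀ γ : Gamma0 N, (((γ : SL(2, ℤ)) 1 1 : ℤ) : ZMod N) = 1 →
      x (Additive.ofMul γ) = 0 := by
  intro x hx γ hγ
  have he2 : e * e = 1 := by rcases he with rfl | rfl <;> ring
  refine IH.ihara_PH N p q hN hp2 hq.one_lt e he2 V hV1 ?_ ?_ hx γ ?_
  · intro κ hκ g g' h00 h01 h10 h11
    have hmem : (g : SL(2, ℤ)) ∈ Gamma0 (N * q) := by
      rw [Gamma0_mem, ZMod.intCast_zmod_eq_zero_iff_dvd, h10]
      obtain ⟨t, ht⟩ := IH.gamma0_dvd g'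
      rw [ht]
      exact ⟨t, by push_cast; ring⟩
    have h1 : cI N q ⟨(g : SL(2, ℤ)), hmem⟩ = g := rfl
    have h2 : cD N q ⟨(g : SL(2, ℤ)), hmem⟩ = g' := by
      apply Subtype.ext
      apply Subtype.ext
      apply hcd_cancel hq.pos
      rw [← cD_spec N q hq.pos, hcd_mul_matD, hcd_matD_mul]
      show !![_, _; _, _] = !![_, _; _, _]
      rw [h00, h01, h10, h11]
    have := hV2 κ hκ ⟨(g : SL(2, ℤ)), hmem⟩
    rwa [h1, h2] at this
  · intro l hl hlN hlq κ hκ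
    refine hV3 κ hκ l hl ?_
    intro h
    rcases (Nat.Prime.dvd_mul hl).mp h with h | h
    · exact hlN h
    · exact hlq h
  · have := (ZMod.intCast_eq_intCast_iff _ 1 N).mp (by rw [hγ]; simp)
    exact this

/-- [S41/EIS1] `z = ψ(d mod N)`; lower right entries are multiplicative mod `N` on matrices with `N ∣ c`;
`d(M i) d(γ) = d(δ i) d(M (σ i))`, `d(M i) ∈ {1, ℓ}` units mod `N`: define `ψ : (ZMod N)ˣ → ZMod p` by
`ψ d = z γ` for any `γ` with `d(γ) = d`; additive; the sum telescopes (`Equiv.sum_comp D.σ`). -/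
theorem eis1 (p N ℓ : ℕ) (hN : 0 < N) (hℓ : ℓ.Prime) (hℓN : ¬ ℓ ∣ N)
    (z : Additive (Gamma0 N) →+ ZMod p)
    (hz : ∀ γ : Gamma0 N, (((γ : SL(2, ℤ)) 1 1 : ℤ) : ZMod N) = 1 → z (Additive.ofMul γ) = 0)
    (γ : Gamma0 N) (D : HData N (matT ℓ) γ) :
    ∑ i, z (Additive.ofMul (D.δ i)) = ((ℓ : ZMod p) + 1) * z (Additive.ofMul γ) :=
  eis1_aux p N ℓ hN hℓ hℓN z hz γ D

end Fermat.Agent.S41
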