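import Fermat.Agent.S41.Red
import Fermat.Agent.S41.IfIhara

/-!
# S41 / KER : the kernel of `(al1, al2)` mod `p` is Eisenstein     (helper28)
-/

set_option autoImplicit false

open CongruenceSubgroup ModularCurve.Period
open Fermat.Agent.S16.Lower Fermat.Agent.S29
open scoped MatrixGroups

noncomputable section

namespace Fermat.Agent.S41

variable {p : ℕ} [Fact p.Prime] {N q : ℕ} [NeZero N] [NeZero (N * q)]
  {hq : q.Prime} {hqN : ¬ q ∣ N} (Dg : Deg N q hq hqN)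

/-- `T_ℓ` mod `p` -/
def Tbar (p : ℕ) [Fact p.Prime] (M : ℕ) [NeZero M] {ℓ : ℕ} (hℓ : ℓ.Prime) (h : ¬ ℓ ∣ M) :
    PH p (Gamma0 M) →ₗ[ZMod p] PH p (Gamma0 M) := bar p (heckeX M hℓ h).toAddMonoidHom

theorem Tbar_red (M : ℕ) [NeZero M] {ℓ : ℕ} (hℓ : ℓ.Prime) (h : ¬ ℓ ∣ M) (c : XN M) :
    Tbar p M hℓ h (red p M c) = red p M (heckeX M hℓ h c) := bar_red p _ c

theorem isTr_Tbar (M : ℕ) [NeZero M] {ℓ : ℕ} (hℓ : ℓ.Prime) (h : ¬ ℓ ∣ M) (x : PH p (Gamma0 M)) :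
    IsTr (Gamma0 M) (Gamma0 M) (matT ℓ) (x : Additive (Gamma0 M) →+ ZMod p)
      (Tbar p M hℓ h x : Additive (Gamma0 M) →+ ZMod p) := by
  obtain ⟨c, rfl⟩ := red_surjective p M x
  rw [Tbar_red]
  exact ((isTr_iff_isTransfer _ _ _).2 (isTransfer_heckeX M hℓ h c)).redHom p

theorem bar_a1_apply (x : PH p (Gamma0 N)) (γ : Gamma0 (N * q)) :
    (bar p Dg.a1.toAddMonoidHom x : Additive (Gamma0 (N * q)) →+ ZMod p) (Additive.ofMul γ) =
      (x : Additive (Gamma0 N) →+ ZMod p) (Additive.ofMul (cI N q γ)) := by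
  obtain ⟨c, rfl⟩ := red_surjective p N x
  rw [bar_red, red_apply, red_apply]
  exact congrArg _ (Dg.a1_apply c γ)

theorem bar_a2_apply (x : PH p (Gamma0 N)) (γ : Gamma0 (N * q)) :
    (bar p Dg.a2.toAddMonoidHom x : Additive (Gamma0 (N * q)) →+ ZMod p) (Additive.ofMul γ) =
      (x : Additive (Gamma0 N) →+ ZMod p) (Additive.ofMul (cD N q γ)) := by
  obtain ⟨c, rfl⟩ := red_surjective p N x
  rw [bar_red, red_apply, red_apply]
  exact congrArg _ (Dg.a2_apply c γ)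

theorem bar_a1_T {ℓ : ℕ} (hℓ : ℓ.Prime) (h : ¬ ℓ ∣ N) (h' : ¬ ℓ ∣ N * q) (x : PH p (Gamma0 N)) :
    bar p Dg.a1.toAddMonoidHom (Tbar p N hℓ h x) =
      Tbar p (N * q) hℓ h' (bar p Dg.a1.toAddMonoidHom x) := by
  obtain ⟨c, rfl⟩ := red_surjective p N x
  rw [Tbar_red, bar_red, bar_red, Tbar_red]
  exact congrArg _ (Dg.a1_T ℓ hℓ h h' c)

theorem bar_a2_T {ℓ : ℕ} (hℓ : ℓ.Prime) (h : ¬ ℓ ∣ N) (h' : ¬ ℓ ∣ N * q) (x : PH p (Gamma0 N)) :
    bar p Dg.a2.toAddMonoidHom (Tbar p N hℓ h x) =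
      Tbar p (N * q) hℓ h' (bar p Dg.a2.toAddMonoidHom x) := by
  obtain ⟨c, rfl⟩ := red_surjective p N x
  rw [Tbar_red, bar_red, bar_red, Tbar_red]
  exact congrArg _ (Dg.a2_T ℓ hℓ h h' c)

include Dg in
/-- a class with `al1 x = e al2 x` is Eisenstein -/
theorem eis_of_ihara (hp2 : p ≠ 2) (e : ZMod p) (he : e = 1 ∨ e = -1) (x : PH p (Gamma0 N))
    (hx : ∀ γ : Gamma0 (N * q), (x : Additive (Gamma0 N) →+ ZMod p) (Additive.ofMul (cI N q γ)) =
      e * (x : Additive (Gamma0 N) →+ ZMod p) (Additive.ofMul (cD N q γ)))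
    {ℓ : ℕ} (hℓ : ℓ.Prime) (h : ¬ ℓ ∣ N) :
    Tbar p N hℓ h x = ((ℓ : ZMod p) + 1) • x := by
  let V : Set (Additive (Gamma0 N) →+ ZMod p) := {z | z ∈ PH p (Gamma0 N) ∧
    ∀ γ : Gamma0 (N * q), z (Additive.ofMul (cI N q γ)) = e * z (Additive.ofMul (cD N q γ))}
  have key := ihara p N q hp2 (Nat.pos_of_ne_zero (NeZero.ne N)) hq hqN e he V (fun z hz => hz.1)
    (fun z hz => hz.2) (by
      rintro z ⟨hz1, hz2⟩ ℓ' hℓ' hℓ'N
      have hN' : ¬ ℓ' ∣ N := fun hd => hℓ'N (Dvd.dvd.mul_right hd q)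
      refine ⟨(Tbar p N hℓ' hN' ⟨z, hz1⟩ : PH p (Gamma0 N)),
        ⟨(Tbar p N hℓ' hN' ⟨z, hz1⟩ : PH p (Gamma0 N)).2, ?_⟩, isTr_Tbar N hℓ' hN' ⟨z, hz1⟩⟩
      intro γ
      have e1 : bar p Dg.a1.toAddMonoidHom (⟨z, hz1⟩ : PH p (Gamma0 N)) =
          e • bar p Dg.a2.toAddMonoidHom (⟨z, hz1⟩ : PH p (Gamma0 N)) := by
        apply Subtype.ext
        refine AddMonoidHom.ext fun γ' => ?_
        have := hz2 (Additive.toMul γ')
        rw [Submodule.coe_smul, AddMonoidHom.smul_apply, smul_eq_mul]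
        exact (bar_a1_apply Dg ⟨z, hz1⟩ (Additive.toMul γ')).trans
          (this.trans (congrArg _ (bar_a2_apply Dg ⟨z, hz1⟩ (Additive.toMul γ')).symm))
      rw [← bar_a1_apply Dg, ← bar_a2_apply Dg, bar_a1_T Dg hℓ' hN' hℓ'N, bar_a2_T Dg hℓ' hN' hℓ'N,
        e1, map_smul]
      rfl)
  have hz := key x ⟨x.2, hx⟩
  apply Subtype.ext
  refine AddMonoidHom.ext fun γ => ?_
  have h1 := isTr_Tbar N hℓ h x (Additive.toMul γ)
    (HD.ofHData (nonempty_HData_T hℓ h (Additive.toMul γ)).some)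
  have h2 := eis1 p N ℓ (Nat.pos_of_ne_zero (NeZero.ne N)) hℓ h _ hz (Additive.toMul γ)
    (nonempty_HData_T hℓ h (Additive.toMul γ)).some
  rw [Submodule.coe_smul, AddMonoidHom.smul_apply, smul_eq_mul]
  exact h1.trans h2

include Dg in
/-- the kernel of `(al1, al2)` mod `p` is killed by `T_ℓ - ℓ - 1` -/
theorem ker_eis (hp2 : p ≠ 2) (x₁ x₂ : PH p (Gamma0 N))
    (hx : bar p Dg.a1.toAddMonoidHom x₁ + bar p Dg.a2.toAddMonoidHom x₂ = 0)
    {ℓ : ℕ} (hℓ : ℓ.Prime) (h : ¬ ℓ ∣ N) :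
    Tbar p N hℓ h x₁ = ((ℓ : ZMod p) + 1) • x₁ ∧ Tbar p N hℓ h x₂ = ((ℓ : ZMod p) + 1) • x₂ := by
  have h0 : ∀ γ : Gamma0 (N * q), (x₁ : Additive (Gamma0 N) →+ ZMod p) (Additive.ofMul (cI N q γ)) +
      (x₂ : Additive (Gamma0 N) →+ ZMod p) (Additive.ofMul (cD N q γ)) = 0 := by
    intro γ
    rw [← bar_a1_apply Dg, ← bar_a2_apply Dg]
    have := congrArg (fun z : PH p (Gamma0 (N * q)) =>
      (z : Additive (Gamma0 (N * q)) →+ ZMod p) (Additive.ofMul γ)) hx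
    simpa using this
  have h1 := swap N q hq hqN _ _ h0
  have hplus := eis_of_ihara Dg hp2 (-1) (Or.inr rfl) (x₁ + x₂) (by
    intro γ
    have a := h0 γ
    have b := h1 γ
    simp only [Submodule.coe_add, AddMonoidHom.add_apply]
    linear_combination a + b) hℓ h
  have hminus := eis_of_ihara Dg hp2 1 (Or.inl rfl) (x₁ + (-1 : ZMod p) • x₂) (by
    intro γ
    have a := h0 γ
    have b := h1 γ
    simp only [Submodule.coe_add, AddMonoidHom.add_apply, Submodule.coe_smul,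
      AddMonoidHom.smul_apply, smul_eq_mul]
    linear_combination a - b) hℓ h
  have h2 : (2 : ZMod p) ≠ 0 := by
    intro h2
    have : ((2 : ℕ) : ZMod p) = 0 := by exact_mod_cast h2
    rw [ZMod.natCast_eq_zero_iff] at this
    exact hp2 ((Nat.prime_dvd_prime_iff_eq (Fact.out) Nat.prime_two).1 this)
  rw [map_add, smul_add] at hplus
  rw [map_add, map_smul, smul_add] at hminus
  constructor
  · have : (2 : ZMod p) • Tbar p N hℓ h x₁ = (2 : ZMod p) • (((ℓ : ZMod p) + 1) • x₁) := by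
      linear_combination (norm := module) hplus + hminus
    exact smul_right_injective _ h2 this
  · have : (2 : ZMod p) • Tbar p N hℓ h x₂ = (2 : ZMod p) • (((ℓ : ZMod p) + 1) • x₂) := by
      linear_combination (norm := module) hplus - hminus
    exact smul_right_injective _ h2 this

end Fermat.Agent.S41
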