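import Fermat.Agent.S41.Defs

/-!
# S41 / RED : `PH p (Gamma0 M) = XN M / p`, induced maps      [key S41/RED]

* `red_surjective` : `S16.Lower.exists_lift`.
* `red_eq_zero_iff` : `c γ / p`.
* `bar f` : the `ZMod p`-linear map induced by an additive map `f : XN M →+ XN M'` (section of `red` = `Function.surjInv`; additive because
  `s (v + w) - s v - s w ∈ ker red = p X`; `AddMonoidHom.toZModLinearMap`).
-/

set_option autoImplicit false

open CongruenceSubgroup ModularCurve.Period
open Fermat.Agent.S16.Lower Fermat.Agent.S29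
open scoped MatrixGroups

noncomputable section

namespace Fermat.Agent.S41

theorem red_surjective (p M : ℕ) [NeZero M] : Function.Surjective (red p M) := by
  rintro ⟨κ, hκ⟩
  obtain ⟨κt, h1, h2⟩ := exists_lift M p κ (fun γ h => hκ γ (Or.inr h)) (fun γ h => hκ γ (Or.inl h))
  exact ⟨⟨κt, h1⟩, Subtype.ext (AddMonoidHom.ext fun γ => h2 γ)⟩

theorem red_zsmul (p M : ℕ) (n : ℤ) (c : XN M) : red p M (n • c) = (n : ZMod p) • red p M c := by
  apply Subtype.ext
  ext γ
  show (((n • (c : Additive (Gamma0 M) →+ ℤ)) γ : ℤ) : ZMod p) =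
    (n : ZMod p) • ((((c : Additive (Gamma0 M) →+ ℤ) γ : ℤ)) : ZMod p)
  simp

theorem red_eq_zero_iff (p M : ℕ) [Fact p.Prime] (c : XN M) : red p M c = 0 ↔ DivP p c := by
  have hp0 : (p : ℤ) ≠ 0 := by exact_mod_cast (Fact.out : p.Prime).ne_zero
  constructor
  · intro h
    have hdvd : ∀ γ : Additive (Gamma0 M), (p : ℤ) ∣ (c : Additive (Gamma0 M) →+ ℤ) γ := by
      intro γ
      have h1 : (red p M c : Additive (Gamma0 M) →+ ZMod p) γ = 0 := by rw [h]; rfl
      rw [red_apply] at h1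
      exact (ZMod.intCast_zmod_eq_zero_iff_dvd _ p).1 h1
    let z : Additive (Gamma0 M) →+ ℤ := AddMonoidHom.mk'
      (fun γ => (c : Additive (Gamma0 M) →+ ℤ) γ / (p : ℤ)) (by
        intro γ γ'
        show (c : Additive (Gamma0 M) →+ ℤ) (γ + γ') / (p : ℤ) = _
        rw [map_add, Int.add_ediv_of_dvd_left (hdvd γ)])
    have hz : z ∈ XN M := by
      intro γ hγ
      show (c : Additive (Gamma0 M) →+ ℤ) (Additive.ofMul γ) / (p : ℤ) = 0
      rw [c.2 γ hγ, Int.zero_ediv]
    refine ⟨⟨z, hz⟩, ?_⟩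
    apply Subtype.ext
    ext γ
    show (c : Additive (Gamma0 M) →+ ℤ) γ = (p : ℤ) • ((c : Additive (Gamma0 M) →+ ℤ) γ / (p : ℤ))
    rw [smul_eq_mul, Int.mul_ediv_cancel' (hdvd γ)]
  · rintro ⟨z, rfl⟩
    rw [red_zsmul]
    simp

theorem red_map_eq (p : ℕ) [Fact p.Prime] {M M' : ℕ} (f : XN M →+ XN M') {c c' : XN M}
    (h : red p M c = red p M c') : red p M' (f c) = red p M' (f c') := by
  have h1 : red p M (c - c') = 0 := by rw [map_sub, h, sub_self]
  obtain ⟨z, hz⟩ := (red_eq_zero_iff p M _).1 h1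
  have h2 : red p M' (f c - f c') = 0 := by
    rw [red_eq_zero_iff]
    exact ⟨f z, by rw [← map_sub, hz, map_zsmul]⟩
  rw [map_sub, sub_eq_zero] at h2
  exact h2

theorem exists_bar (p : ℕ) [Fact p.Prime] {M M' : ℕ} [NeZero M] (f : XN M →+ XN M') :
    ∃ F : PH p (Gamma0 M) →ₗ[ZMod p] PH p (Gamma0 M'), ∀ c, F (red p M c) = red p M' (f c) := by
  classical
  let s : PH p (Gamma0 M) → XN M := Function.surjInv (red_surjective p M)
  have hs : ∀ v, red p M (s v) = v := Function.surjInv_eq (red_surjective p M)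
  let F0 : PH p (Gamma0 M) →+ PH p (Gamma0 M') := AddMonoidHom.mk'
    (fun v => red p M' (f (s v))) (by
      intro v w
      show red p M' (f (s (v + w))) = red p M' (f (s v)) + red p M' (f (s w))
      rw [← map_add, ← map_add]
      apply red_map_eq
      rw [hs, map_add, hs, hs])
  refine ⟨AddMonoidHom.toZModLinearMap p F0, fun c => ?_⟩
  show red p M' (f (s (red p M c))) = red p M' (f c)
  apply red_map_eq
  rw [hs]

/-- the map induced mod `p` -/
def bar (p : ℕ) [Fact p.Prime] {M M' : ℕ} [NeZero M] (f : XN M →+ XN M') :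
    PH p (Gamma0 M) →ₗ[ZMod p] PH p (Gamma0 M') := (exists_bar p f).choose

@[simp] theorem bar_red (p : ℕ) [Fact p.Prime] {M M' : ℕ} [NeZero M] (f : XN M →+ XN M') (c : XN M) :
    bar p f (red p M c) = red p M' (f c) := (exists_bar p f).choose_spec c

instance finite_PH (p M : ℕ) [Fact p.Prime] [NeZero M] : Module.Finite (ZMod p) (PH p (Gamma0 M)) := by
  have h1 : Module.Finite ℤ (PH p (Gamma0 M)) :=
    Module.Finite.of_surjective (red p M).toIntLinearMap (red_surjective p M)
  exact Module.Finite.of_restrictScalars_finite ℤ (ZMod p) (PH p (Gamma0 M))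

/-- `IsTr` is compatible with reduction -/
theorem IsTr.redHom {Γ' Γ : Subgroup SL(2, ℤ)} {ι : Type} [Fintype ι] {Mf : ι → M2}
    {c : Additive Γ' →+ ℤ} {c' : Additive Γ →+ ℤ} (h : IsTr Γ' Γ Mf c c') (p : ℕ) :
    IsTr Γ' Γ Mf (redHom p c) (redHom p c') := by
  intro γ D
  rw [redHom_apply, h γ D]
  push_cast
  rfl

end Fermat.Agent.S41
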